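import Mathlib
import Fermat.Agent.G.Per.Eigen
import Fermat.Prelude.Def_CuspForm_HeckeAlgebra
import Fermat.Agent.S22
import Fermat.Agent.G.Adic.Dvr

/-!
# S58, leaf (IN): the inputs of S35 / S36 for a normalised eigenform

For a normalised eigenform `g` of level `M`, a prime `lam` and ANY finite set `S` of primes:

* `s58in_exists_char` : the eigencharacter `chig : heckeAlgebra M 2 S →+* ℂ` with
  `chig (T_ℓ) = a_ℓ(g)` (`g` is an eigenvector of `T_ℓ`, `ℓ ∤ M`, AND of `U_q`, `q ∣ M`, so no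
  hypothesis `{q ∣ M} ⊆ S` is needed);
* `s58in_exists_dvr` : a domain `R` of characteristic zero which is finite over `ℤ` embeds into a
  complete DVR `O` of characteristic zero with finite residue field and `lam ∈ 𝔪_O`
  (`O` := the ring of integers of a residue field of `Frac ℤ_[lam] ⊗_ℤ R`);
* `s58in_exists` : the two combined, `R := chig.range` (finite over `ℤ` by S22).
-/

set_option autoImplicit false
set_option linter.style.haveILetI false
set_option linter.unusedSectionVars false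
set_option linter.unusedVariables false

noncomputable section

namespace Fermat.Agent.S58

open CongruenceSubgroup ModularFormClass Fermat.Agent.S49 Fermat.Agent.G
open IsLocalRing TensorProduct

/-! ### the eigencharacter -/

/-- the coefficient identity behind `U_q g = a_q g`, `q ∣ N` -/
theorem s58in_coeffU {N : ℕ} {g : CuspForm (Gamma0 N) 2} (hg : g.IsNormalizedEigenform)
    {q : ℕ} (hq : q.Prime) (hqN : q ∣ N) (n : ℕ) :
    ModularForm.coeffHeckeU q (qCoeff ⇑g) n = qCoeff ⇑g q * qCoeff ⇑g n := by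
  rw [ModularForm.coeffHeckeU_apply]
  rcases Nat.eq_zero_or_pos n with h0 | hpos
  · subst h0
    rw [zero_mul, qc_zero_coeff g, mul_zero]
  · obtain ⟨r, m, hm, hn⟩ := Nat.exists_eq_pow_mul_and_not_dvd hpos.ne' q hq.ne_one
    have hcop : ∀ s : ℕ, Nat.Coprime (q ^ s) m := fun s =>
      Nat.Coprime.pow_left s ((Nat.Prime.coprime_iff_not_dvd hq).mpr hm)
    have hnl : n * q = q ^ (r + 1) * m := by rw [hn, pow_succ]; ring
    rw [hnl, hg.qCoeff_mul_of_coprime _ _ (hcop (r + 1)), hn,
      hg.qCoeff_mul_of_coprime _ _ (hcop r)]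
    rcases r with _ | r
    · rw [zero_add, pow_one, pow_zero, hg.qCoeff_one]
      ring
    · rw [hg.qCoeff_prime_pow_of_dvd q r hq hqN]
      ring

/-- a normalized eigenform is an eigenvector of `U_q`, `q ∣ N` -/
theorem s58in_heckeU_eigen {N : ℕ} [NeZero N] {g : CuspForm (Gamma0 N) 2}
    (hg : g.IsNormalizedEigenform) {q : ℕ} (hq : q.Prime) (hqN : q ∣ N) :
    CuspForm.heckeULin 2 hqN g = ModularFormClass.qCoeff g q • g := by
  apply qc_injective N 2
  funext n
  rw [qc_apply, qc_apply, qc_heckeULin hq hqN, qc_smul]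
  exact s58in_coeffU hg hq hqN n

section Char

variable {N : ℕ} [NeZero N]

/-- the eigenvalue is the first coefficient of the image -/
theorem s58in_eigenvalue_eq {g : CuspForm (Gamma0 N) 2} (hg : g.IsNormalizedEigenform)
    (T : Module.End ℂ (CuspForm (Gamma0 N) 2)) {c : ℂ} (h : T g = c • g) :
    qc N 2 (T g) 1 = c := by
  rw [h, qc_apply, qc_smul, hg.qCoeff_one, mul_one]

/-- every element of the Hecke algebra (any `S`) has `g` as an eigenvector -/
theorem s58in_eigen_of_mem (S : Set ℕ)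
    {g : CuspForm (Gamma0 N) 2} (hg : g.IsNormalizedEigenform)
    (T : Module.End ℂ (CuspForm (Gamma0 N) 2)) (hT : T ∈ CuspForm.heckeAlgebra N 2 S) :
    ∃ c : ℂ, T g = c • g := by
  unfold CuspForm.heckeAlgebra at hT
  induction hT using Algebra.adjoin_induction with
  | mem x hx =>
    rcases hx with ⟨ℓ, hℓ, hℓN, -, rfl⟩ | ⟨q, hqN, hq, hqS, rfl⟩
    · exact ⟨_, gpr_heckeT_eigen hg hℓ hℓN⟩
    · exact ⟨_, s58in_heckeU_eigen hg hq hqN⟩
  | algebraMap r =>
    refine ⟨(r : ℂ), ?_⟩
    rw [Algebra.algebraMap_eq_smul_one, LinearMap.smul_apply, Module.End.one_apply]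
    exact (Int.cast_smul_eq_zsmul ℂ r g).symm
  | add x y _ _ hx hy =>
    obtain ⟨c, hc⟩ := hx
    obtain ⟨d, hd⟩ := hy
    exact ⟨c + d, by rw [LinearMap.add_apply, hc, hd, add_smul]⟩
  | mul x y _ _ hx hy =>
    obtain ⟨c, hc⟩ := hx
    obtain ⟨d, hd⟩ := hy
    exact ⟨c * d, by rw [Module.End.mul_apply, hd, map_smul, hc, smul_smul, mul_comm]⟩

/-- **the character of a normalised eigenform** on the Hecke algebra away from any `S` -/
theorem s58in_exists_char (S : Set ℕ)
    {g : CuspForm (Gamma0 N) 2} (hg : g.IsNormalizedEigenform) :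
    ∃ χ : CuspForm.heckeAlgebra N 2 S →+* ℂ,
      ∀ (ℓ : ℕ) (hℓ : ℓ.Prime) (hℓN : ¬ ℓ ∣ N) (hℓS : ℓ ∉ S),
        χ (CuspForm.heckeAlgebra.T hℓ hℓN hℓS) = qCoeff g ℓ := by
  refine ⟨{ toFun := fun T => qc N 2 ((T : Module.End ℂ (CuspForm (Gamma0 N) 2)) g) 1
            map_one' := ?_
            map_mul' := ?_
            map_zero' := ?_
            map_add' := ?_ }, ?_⟩
  · show qc N 2 (((1 : CuspForm.heckeAlgebra N 2 S) :
      Module.End ℂ (CuspForm (Gamma0 N) 2)) g) 1 = 1
    rw [OneMemClass.coe_one, Module.End.one_apply, qc_apply, hg.qCoeff_one]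
  · intro T T'
    show qc N 2 (((T * T' : CuspForm.heckeAlgebra N 2 S) :
      Module.End ℂ (CuspForm (Gamma0 N) 2)) g) 1 =
        qc N 2 ((T : Module.End ℂ (CuspForm (Gamma0 N) 2)) g) 1 *
          qc N 2 ((T' : Module.End ℂ (CuspForm (Gamma0 N) 2)) g) 1
    obtain ⟨c, hc⟩ := s58in_eigen_of_mem S hg T.1 T.2
    obtain ⟨d, hd⟩ := s58in_eigen_of_mem S hg T'.1 T'.2
    rw [s58in_eigenvalue_eq hg T.1 hc, s58in_eigenvalue_eq hg T'.1 hd]
    apply s58in_eigenvalue_eq hg
    rw [MulMemClass.coe_mul, Module.End.mul_apply, hd, map_smul, hc, smul_smul, mul_comm]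
  · show qc N 2 (((0 : CuspForm.heckeAlgebra N 2 S) :
      Module.End ℂ (CuspForm (Gamma0 N) 2)) g) 1 = 0
    rw [ZeroMemClass.coe_zero, LinearMap.zero_apply, map_zero]
    rfl
  · intro T T'
    show qc N 2 (((T + T' : CuspForm.heckeAlgebra N 2 S) :
      Module.End ℂ (CuspForm (Gamma0 N) 2)) g) 1 = _
    rw [AddMemClass.coe_add, LinearMap.add_apply, map_add]
    rfl
  · intro ℓ hℓ hℓN hℓS
    show qc N 2 (CuspForm.heckeTLin 2 hℓ hℓN g) 1 = qCoeff g ℓ
    exact s58in_eigenvalue_eq hg _ (gpr_heckeT_eigen hg hℓ hℓN)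

end Char

/-! ### a complete DVR containing a given order -/

/-- a domain finite over `ℤ` of characteristic zero embeds into a finite extension of any given
field of characteristic zero (a residue field of `K ⊗_ℤ R`) -/
theorem s58in_exists_field (K : Type) [Field K] [CharZero K] (R : Type) [CommRing R] [IsDomain R]
    [CharZero R] [Module.Finite ℤ R] :
    ∃ (K₂ : Type) (_ : Field K₂) (_ : Algebra K K₂) (_ : FiniteDimensional K K₂) (f : R →+* K₂),
      Function.Injective f := by
  classical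
  have hinjR : Function.Injective (algebraMap ℤ R) := (algebraMap ℤ R).injective_int
  have hinjK : Function.Injective
      (Algebra.TensorProduct.includeLeft : K →ₐ[K] K ⊗[ℤ] R) :=
    Algebra.TensorProduct.includeLeft_injective hinjR
  haveI : Nontrivial (K ⊗[ℤ] R) := hinjK.nontrivial
  obtain ⟨𝔪, h𝔪⟩ := Ideal.exists_maximal (K ⊗[ℤ] R)
  letI : Field ((K ⊗[ℤ] R) ⧸ 𝔪) := Ideal.Quotient.field 𝔪
  haveI : FiniteDimensional K ((K ⊗[ℤ] R) ⧸ 𝔪) :=
    Module.Finite.of_surjective (Ideal.Quotient.mkₐ K 𝔪).toLinearMap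
      (Ideal.Quotient.mkₐ_surjective K 𝔪)
  haveI : CharZero ((K ⊗[ℤ] R) ⧸ 𝔪) :=
    charZero_of_injective_algebraMap (algebraMap K ((K ⊗[ℤ] R) ⧸ 𝔪)).injective
  set f : R →+* (K ⊗[ℤ] R) ⧸ 𝔪 :=
    (Ideal.Quotient.mk 𝔪).comp
      (Algebra.TensorProduct.includeRight : R →ₐ[ℤ] K ⊗[ℤ] R).toRingHom with hf
  refine ⟨(K ⊗[ℤ] R) ⧸ 𝔪, inferInstance, inferInstance, inferInstance, f, ?_⟩
  haveI : Algebra.IsIntegral ℤ R := Algebra.IsIntegral.of_finite ℤ R
  haveI : (RingHom.ker f).IsPrime := RingHom.ker_isPrime f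
  have hbot : RingHom.ker f = ⊥ := by
    apply Ideal.eq_bot_of_comap_eq_bot (R := ℤ)
    rw [RingHom.comap_ker]
    rw [RingHom.ker_eq_bot_iff_eq_zero]
    intro n hn
    rw [eq_intCast, Int.cast_eq_zero] at hn
    exact hn
  exact (RingHom.injective_iff_ker_eq_bot f).2 hbot

/-- a ring hom `j` from a domain into a field which is injective and hits every element up to
denominators makes the field a fraction field -/
theorem s58in_isFractionRing {O K : Type} [CommRing O] [IsDomain O] [Field K] (j : O →+* K)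
    (hj : Function.Injective j) (hsurj : ∀ x : K, ∃ a b : O, b ≠ 0 ∧ x * j b = j a) :
    @IsFractionRing O _ K _ j.toAlgebra := by
  letI : Algebra O K := j.toAlgebra
  refine ⟨?_, ?_, ?_⟩
  · rintro ⟨y, hy⟩
    have hy0 : y ≠ 0 := nonZeroDivisors.ne_zero hy
    exact IsUnit.mk0 _ (fun h => hy0 (hj (by rw [map_zero]; exact h)))
  · intro x
    obtain ⟨a, b, hb, hab⟩ := hsurj x
    exact ⟨⟨a, ⟨b, mem_nonZeroDivisors_of_ne_zero hb⟩⟩, hab⟩
  · intro x y hxy
    exact ⟨1, by rw [hj hxy]⟩

/-- elements integral over `ℤ` of the fraction field of an integrally closed domain lie in it -/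
theorem s58in_mem_range {O K : Type} [CommRing O] [IsDomain O] [IsIntegrallyClosed O] [Field K]
    (j : O →+* K) (hj : Function.Injective j)
    (hsurj : ∀ x : K, ∃ a b : O, b ≠ 0 ∧ x * j b = j a) {x : K} (hx : IsIntegral ℤ x) :
    x ∈ j.range := by
  letI : Algebra O K := j.toAlgebra
  haveI : IsFractionRing O K := s58in_isFractionRing j hj hsurj
  have h : IsIntegral O x := hx.tower_top
  obtain ⟨y, hy⟩ := IsIntegrallyClosed.isIntegral_iff.1 h
  exact ⟨y, hy⟩

/-- **a `lam`-adic completion of an order**: a domain of characteristic zero which is finite over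
`ℤ` embeds into a complete DVR of characteristic zero with finite residue field in which `lam`
is not a unit. -/
theorem s58in_exists_dvr (R : Type) [CommRing R] [IsDomain R] [CharZero R] [Module.Finite ℤ R]
    (lam : ℕ) [Fact lam.Prime] :
    ∃ (O : Type) (_ : CommRing O) (_ : IsDomain O) (_ : IsDiscreteValuationRing O)
      (_ : IsAdicComplete (maximalIdeal O) O) (_ : Finite (ResidueField O)) (_ : CharZero O),
      (lam : O) ∈ maximalIdeal O ∧ ∃ iota : R →+* O, Function.Injective iota := by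
  classical
  haveI : Finite (ResidueField ℤ_[lam]) := Finite.of_equiv _ PadicInt.residueField.toEquiv.symm
  haveI : CharZero (FractionRing ℤ_[lam]) :=
    charZero_of_injective_algebraMap (IsFractionRing.injective ℤ_[lam] (FractionRing ℤ_[lam]))
  obtain ⟨K₂, _, _, _, f, hf⟩ := s58in_exists_field (FractionRing ℤ_[lam]) R
  obtain ⟨O, _, _, _, _, _, _, _, _, hloc, j, hinj, hj, hsurj, hcomp⟩ :=
    Fermat.Agent.G.gad_exists_dvr_extension ℤ_[lam] K₂
  refine ⟨O, inferInstance, inferInstance, inferInstance, inferInstance, inferInstance,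
    inferInstance, ?_, ?_⟩
  · have h1 : (lam : ℤ_[lam]) ∈ maximalIdeal ℤ_[lam] := by
      rw [PadicInt.maximalIdeal_eq_span_p]
      exact Ideal.subset_span rfl
    have h2 : (lam : O) = algebraMap ℤ_[lam] O (lam : ℤ_[lam]) := (map_natCast _ _).symm
    rw [h2]
    exact map_nonunit _ _ h1
  · haveI : Algebra.IsIntegral ℤ R := Algebra.IsIntegral.of_finite ℤ R
    have hmem : ∀ r : R, f r ∈ j.range := fun r =>
      s58in_mem_range j hj hsurj ((Algebra.IsIntegral.isIntegral (R := ℤ) r).map f.toIntAlgHom)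
    let e : O ≃+* j.range := RingEquiv.ofLeftInverse (Function.leftInverse_invFun hj)
    refine ⟨e.symm.toRingHom.comp (f.codRestrict j.range hmem), ?_⟩
    intro a b hab
    apply hf
    have h3 := e.symm.injective hab
    exact congrArg Subtype.val h3

/-! ### the inputs of S35 / S36 -/

/-- **(IN)** the inputs `chig`, `O`, `iota` of S35 / S36 for a normalised eigenform `g` of level
`M`, a prime `lam` and ANY finite set `S`. -/
theorem s58in_exists {M : ℕ} [NeZero M] {g : CuspForm (Gamma0 M) 2}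
    (hg : g.IsNormalizedEigenform) (lam : ℕ) [Fact lam.Prime] (S : Finset ℕ) :
    ∃ chig : CuspForm.heckeAlgebra M 2 (↑S : Set ℕ) →+* ℂ,
      (∀ (ℓ : ℕ) (hℓ : ℓ.Prime) (hℓM : ¬ ℓ ∣ M) (hℓS : ℓ ∉ (↑S : Set ℕ)),
        chig (CuspForm.heckeAlgebra.T hℓ hℓM hℓS) = ModularFormClass.qCoeff g ℓ) ∧
      ∃ (O : Type) (_ : CommRing O) (_ : IsDomain O) (_ : IsDiscreteValuationRing O)
        (_ : IsAdicComplete (IsLocalRing.maximalIdeal O) O)
        (_ : Finite (IsLocalRing.ResidueField O)) (_ : CharZero O),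
        (lam : O) ∈ IsLocalRing.maximalIdeal O ∧
        ∃ iota : chig.range →+* O, Function.Injective iota := by
  obtain ⟨chig, hchig⟩ := s58in_exists_char (↑S : Set ℕ) hg
  refine ⟨chig, hchig, ?_⟩
  haveI : Module.Finite ℤ (CuspForm.heckeAlgebra M 2 (↑S : Set ℕ)) :=
    Fermat.Agent.S22.result M 2 (↑S : Set ℕ)
  haveI : Module.Finite ℤ chig.range :=
    Module.Finite.of_surjective chig.rangeRestrict.toAddMonoidHom.toIntLinearMap
      chig.rangeRestrict_surjective
  haveI : CharZero chig.range := chig.range.subtype.charZero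
  exact s58in_exists_dvr chig.range lam

end Fermat.Agent.S58
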