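import Mathlib

set_option autoImplicit false

/-!
# S58 / Node: the division polynomials `Φ₃, ΨSq₃, Φ₅, ΨSq₅` of a Weierstrass curve with
`b₄ = b₆ = b₈ = 0` (a node at `x = 0`), over any commutative ring
-/

namespace Fermat.Agent.S58

open WeierstrassCurve Polynomial

section node

variable {R : Type*} [CommRing R] (W : WeierstrassCurve R)

theorem s58n_preΨ_five_eq : W.preΨ 5 = W.preΨ₄ * W.Ψ₂Sq ^ 2 - W.Ψ₃ ^ 3 := by
  have h := W.preΨ_odd 2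
  have e1 : (2 * 2 + 1 : ℤ) = 5 := by norm_num
  have e2 : (2 + 2 : ℤ) = 4 := by norm_num
  have e3 : (2 - 1 : ℤ) = 1 := by norm_num
  have e4 : (2 + 1 : ℤ) = 3 := by norm_num
  rw [e1, e2, e3, e4, if_pos (by decide), if_pos (by decide), preΨ_four, preΨ_two, preΨ_one,
    preΨ_three] at h
  rw [h]; ring

theorem s58n_preΨ_six_eq : W.preΨ 6 = W.Ψ₃ * W.preΨ 5 - W.Ψ₃ * W.preΨ₄ ^ 2 := by
  have h := W.preΨ_even 3
  have e1 : (2 * 3 : ℤ) = 6 := by norm_num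
  have e2 : (3 - 1 : ℤ) = 2 := by norm_num
  have e3 : (3 + 2 : ℤ) = 5 := by norm_num
  have e4 : (3 - 2 : ℤ) = 1 := by norm_num
  have e5 : (3 + 1 : ℤ) = 4 := by norm_num
  rw [e1, e2, e3, e4, e5, preΨ_four, preΨ_two, preΨ_one, preΨ_three] at h
  rw [h]; ring

theorem s58n_ΨSq_five_eq : W.ΨSq 5 = W.preΨ 5 ^ 2 := by
  rw [WeierstrassCurve.ΨSq, if_neg (by decide), mul_one]

theorem s58n_Φ_five_eq : W.Φ 5 = X * W.preΨ 5 ^ 2 - W.preΨ 6 * W.preΨ₄ * W.Ψ₂Sq := by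
  have e1 : (5 + 1 : ℤ) = 6 := by norm_num
  have e2 : (5 - 1 : ℤ) = 4 := by norm_num
  rw [WeierstrassCurve.Φ, if_neg (by decide), s58n_ΨSq_five_eq, e1, e2, preΨ_four]

variable {W}
variable (h4 : W.b₄ = 0) (h6 : W.b₆ = 0) (h8 : W.b₈ = 0)

include h4 h6 in
theorem s58n_Ψ₂Sq : W.Ψ₂Sq = X ^ 2 * (4 * X + C W.b₂) := by
  rw [Ψ₂Sq, h4, h6]
  simp only [mul_zero, map_zero, zero_mul, add_zero]
  have : (C 4 : R[X]) = 4 := map_ofNat C 4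
  rw [this]; ring

include h4 h6 h8 in
theorem s58n_Ψ₃ : W.Ψ₃ = X ^ 3 * (3 * X + C W.b₂) := by
  rw [Ψ₃, h4, h6, h8]
  simp only [mul_zero, map_zero, zero_mul, add_zero]
  ring

include h4 h6 h8 in
theorem s58n_preΨ₄ : W.preΨ₄ = X ^ 5 * (2 * X + C W.b₂) := by
  rw [preΨ₄, h4, h6, h8]
  simp only [mul_zero, map_zero, zero_mul, add_zero, sub_zero, ne_eq, OfNat.ofNat_ne_zero,
    not_false_eq_true, zero_pow]
  ring

include h4 h6 h8 in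
theorem s58n_preΨ_five :
    W.preΨ 5 = X ^ 10 * (5 * X ^ 2 + 5 * C W.b₂ * X + C W.b₂ ^ 2) := by
  rw [s58n_preΨ_five_eq, s58n_preΨ₄ h4 h6 h8, s58n_Ψ₂Sq h4 h6, s58n_Ψ₃ h4 h6 h8]
  ring

include h4 h6 h8 in
theorem s58n_preΨ_six :
    W.preΨ 6 = X ^ 14 * ((3 * X + C W.b₂) * (X + C W.b₂)) := by
  rw [s58n_preΨ_six_eq, s58n_preΨ_five h4 h6 h8, s58n_preΨ₄ h4 h6 h8, s58n_Ψ₃ h4 h6 h8]
  ring

include h4 h6 h8 in
theorem s58n_ΨSq_three : W.ΨSq 3 = X ^ 6 * (3 * X + C W.b₂) ^ 2 := by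
  rw [ΨSq_three, s58n_Ψ₃ h4 h6 h8]
  ring

include h4 h6 h8 in
theorem s58n_Φ_three : W.Φ 3 = X ^ 9 := by
  rw [Φ_three, s58n_Ψ₃ h4 h6 h8, s58n_preΨ₄ h4 h6 h8, s58n_Ψ₂Sq h4 h6]
  ring

include h4 h6 h8 in
theorem s58n_ΨSq_five :
    W.ΨSq 5 = X ^ 20 * (5 * X ^ 2 + 5 * C W.b₂ * X + C W.b₂ ^ 2) ^ 2 := by
  rw [s58n_ΨSq_five_eq, s58n_preΨ_five h4 h6 h8]
  ring

include h4 h6 h8 in
theorem s58n_Φ_five : W.Φ 5 = X ^ 25 := by
  rw [s58n_Φ_five_eq, s58n_preΨ_five h4 h6 h8, s58n_preΨ_six h4 h6 h8, s58n_preΨ₄ h4 h6 h8,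
    s58n_Ψ₂Sq h4 h6]
  ring

/-! ### coefficients -/

theorem s58n_sq_expand (b : R) :
    ((3 : R[X]) * X + C b) ^ 2 = C 9 * X ^ 2 + C (6 * b) * X ^ 1 + C (b ^ 2) * X ^ 0 := by
  simp only [map_mul, map_pow, map_ofNat]
  ring

theorem s58n_lin_expand (b : R) :
    ((3 : R[X]) * X + C b) = C 3 * X ^ 1 + C b * X ^ 0 := by
  simp only [map_ofNat]
  ring

theorem s58n_quad_expand (b : R) :
    ((5 : R[X]) * X ^ 2 + 5 * C b * X + C b ^ 2) =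
      C 5 * X ^ 2 + C (5 * b) * X ^ 1 + C (b ^ 2) * X ^ 0 := by
  simp only [map_mul, map_pow, map_ofNat]
  ring

theorem s58n_quad_sq_expand (b : R) :
    ((5 : R[X]) * X ^ 2 + 5 * C b * X + C b ^ 2) ^ 2 =
      C 25 * X ^ 4 + C (50 * b) * X ^ 3 + C (35 * b ^ 2) * X ^ 2 + C (10 * b ^ 3) * X ^ 1
        + C (b ^ 4) * X ^ 0 := by
  simp only [map_mul, map_pow, map_ofNat]
  ring

include h4 h6 h8 in
theorem s58n_coeff_Φ_three (i : ℕ) (hi : i ≠ 9) : (W.Φ 3).coeff i = 0 := by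
  rw [s58n_Φ_three h4 h6 h8, coeff_X_pow, if_neg hi]

include h4 h6 h8 in
theorem s58n_coeff_Φ_five (i : ℕ) (hi : i ≠ 25) : (W.Φ 5).coeff i = 0 := by
  rw [s58n_Φ_five h4 h6 h8, coeff_X_pow, if_neg hi]

include h4 h6 h8 in
theorem s58n_coeff_ΨSq_three_six : (W.ΨSq 3).coeff 6 = W.b₂ ^ 2 := by
  rw [s58n_ΨSq_three h4 h6 h8, coeff_X_pow_mul', if_pos le_rfl, s58n_sq_expand]
  simp only [coeff_add, coeff_C_mul_X_pow]
  norm_num

include h4 h6 h8 in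
theorem s58n_coeff_ΨSq_three_eight : (W.ΨSq 3).coeff 8 = 9 := by
  rw [s58n_ΨSq_three h4 h6 h8, coeff_X_pow_mul', if_pos (by norm_num), s58n_sq_expand]
  simp only [coeff_add, coeff_C_mul_X_pow]
  norm_num

include h4 h6 h8 in
theorem s58n_coeff_ΨSq_five_twenty : (W.ΨSq 5).coeff 20 = W.b₂ ^ 4 := by
  rw [s58n_ΨSq_five h4 h6 h8, coeff_X_pow_mul', if_pos le_rfl, s58n_quad_sq_expand]
  simp only [coeff_add, coeff_C_mul_X_pow]
  norm_num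

include h4 h6 h8 in
theorem s58n_coeff_ΨSq_five_twentyfour : (W.ΨSq 5).coeff 24 = 25 := by
  rw [s58n_ΨSq_five h4 h6 h8, coeff_X_pow_mul', if_pos (by norm_num), s58n_quad_sq_expand]
  simp only [coeff_add, coeff_C_mul_X_pow]
  norm_num

include h4 h6 h8 in
theorem s58n_coeff_preΨ_three_three : (W.preΨ 3).coeff 3 = W.b₂ := by
  rw [preΨ_three, s58n_Ψ₃ h4 h6 h8, coeff_X_pow_mul', if_pos le_rfl, s58n_lin_expand]
  simp only [coeff_add, coeff_C_mul_X_pow]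
  norm_num

include h4 h6 h8 in
theorem s58n_coeff_preΨ_three_four : (W.preΨ 3).coeff 4 = 3 := by
  rw [preΨ_three, s58n_Ψ₃ h4 h6 h8, coeff_X_pow_mul', if_pos (by norm_num), s58n_lin_expand]
  simp only [coeff_add, coeff_C_mul_X_pow]
  norm_num

include h4 h6 h8 in
theorem s58n_coeff_preΨ_five_ten : (W.preΨ 5).coeff 10 = W.b₂ ^ 2 := by
  rw [s58n_preΨ_five h4 h6 h8, coeff_X_pow_mul', if_pos le_rfl, s58n_quad_expand]
  simp only [coeff_add, coeff_C_mul_X_pow]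
  norm_num

include h4 h6 h8 in
theorem s58n_coeff_preΨ_five_twelve : (W.preΨ 5).coeff 12 = 5 := by
  rw [s58n_preΨ_five h4 h6 h8, coeff_X_pow_mul', if_pos (by norm_num), s58n_quad_expand]
  simp only [coeff_add, coeff_C_mul_X_pow]
  norm_num

end node

end Fermat.Agent.S58
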