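import Mathlib
import Fermat.Agent.S05.SameRedCore

set_option autoImplicit false

/-!
# S58 / Root: a polynomial over a valuation ring of an algebraically closed field with two unit
coefficients has a root outside the maximal ideal
-/

namespace Fermat.Agent.S58

open Polynomial Fermat.Agent.S05

section root

variable {K : Type*} [Field K] (A : ValuationSubring K)

theorem s58r_zero_mem_nonunits : (0 : K) ∈ A.nonunits := by
  rw [ValuationSubring.mem_nonunits_iff, map_zero]
  exact zero_lt_one

/-- coefficients of `∏ (X - r)`, all `r` in the maximal ideal -/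
theorem s58r_coeff_prod (s : Multiset K) (hs : ∀ r ∈ s, r ∈ A.nonunits) (i : ℕ) :
    ((s.map fun r => X - C r).prod.coeff i ∈ A) ∧
      (i < Multiset.card s → (s.map fun r => X - C r).prod.coeff i ∈ A.nonunits) := by
  induction s using Multiset.induction_on generalizing i with
  | empty =>
    refine ⟨?_, fun h => absurd h (by simp)⟩
    rw [Multiset.map_zero, Multiset.prod_zero, coeff_one]
    split_ifs
    · exact A.one_mem
    · exact A.zero_mem
  | cons r s ih =>
    have hr : r ∈ A.nonunits := hs r (Multiset.mem_cons_self r s)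
    have hs' : ∀ r' ∈ s, r' ∈ A.nonunits := fun r' hr' => hs r' (Multiset.mem_cons_of_mem hr')
    rw [Multiset.map_cons, Multiset.prod_cons, sub_mul]
    set P := (s.map fun r => X - C r).prod with hP
    rw [coeff_sub, coeff_C_mul]
    have h2 : r * P.coeff i ∈ A.nonunits := samered_nu_mul_right A hr (ih hs' i).1
    cases i with
    | zero =>
      rw [coeff_X_mul_zero, zero_sub]
      exact ⟨neg_mem (A.nonunits_subset h2), fun _ => samered_nu_neg A h2⟩
    | succ j =>
      rw [coeff_X_mul]
      refine ⟨sub_mem (ih hs' j).1 (A.nonunits_subset h2), fun hj => ?_⟩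
      rw [Multiset.card_cons] at hj
      exact samered_nu_sub A ((ih hs' j).2 (by omega)) h2

variable [IsAlgClosed K]

/-- **root outside the maximal ideal** -/
theorem s58r_exists_root (G : K[X]) (hcoef : ∀ i, G.coeff i ∈ A) {i j : ℕ} (hij : i ≠ j)
    (hi : G.coeff i ∉ A.nonunits) (hj : G.coeff j ∉ A.nonunits) :
    ∃ x : K, G.eval x = 0 ∧ x ∉ A.nonunits := by
  by_contra hcon
  push Not at hcon
  have hG0 : G ≠ 0 := by
    intro h0
    apply hi
    rw [h0, coeff_zero]
    exact s58r_zero_mem_nonunits A
  have hsp := IsAlgClosed.splits G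
  have hroots : ∀ r ∈ G.roots, r ∈ A.nonunits := fun r hr =>
    hcon r ((mem_roots hG0).1 hr)
  have hcard : Multiset.card G.roots = G.natDegree := hsp.natDegree_eq_card_roots.symm
  have key : ∀ m : ℕ, m ≠ G.natDegree → G.coeff m ∈ A.nonunits := by
    intro m hm
    rcases lt_or_gt_of_ne hm with hlt | hgt
    · rw [hsp.eq_prod_roots, coeff_C_mul]
      have h1 := (s58r_coeff_prod A G.roots hroots m).2 (by rw [hcard]; exact hlt)
      have h2 : G.leadingCoeff ∈ A := hcoef _
      exact samered_nu_mul_left A h2 h1
    · rw [coeff_eq_zero_of_natDegree_lt hgt]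
      exact s58r_zero_mem_nonunits A
  by_cases h1 : i = G.natDegree
  · exact hj (key j (fun h2 => hij (h1.trans h2.symm)))
  · exact hi (key i h1)

end root

end Fermat.Agent.S58
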