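import Mathlib
import Fermat.Agent.S05.Legendre
import Fermat.Agent.S13.DPDefs
import Fermat.Agent.S13.DPE
import Fermat.Agent.S13.DPF

set_option autoImplicit false
set_option linter.unusedVariables false
set_option linter.unusedSectionVars false

/-!
# S58 / Tors: division by `lam ∈ {3, 5}` on a Weierstrass curve through the division polynomials

* `s58_div_of_root` : a root `x` of `Φ_lam - x(Q) ΨSq_lam` is the `x`-coordinate of a point `P`
  with `lam • P = ± Q` (for `Q` not of order `< lam`).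
* `s58_chain` : over an algebraically closed field, points of exact order `lam ^ n` whose
  `x`-coordinates satisfy a prescribed predicate stable under the choice of roots.
-/

namespace Fermat.Agent.S58

open WeierstrassCurve WeierstrassCurve.Affine Polynomial
open Fermat.Agent.S05 (xc yc)
open Fermat.Agent.S13

section eval

variable {R : Type*} [CommRing R] {W : WeierstrassCurve R} {x y : R}

theorem s58_ΨSq_eval_of_odd (h : W.toAffine.Equation x y) {n : ℤ} (hn : Odd n) :
    (W.ΨSq n).eval x = dpv W x y n ^ 2 := by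
  rw [WeierstrassCurve.ΨSq, if_neg (Int.not_even_iff_odd.2 hn), mul_one, eval_pow,
    dpv_eq_eval_preΨ_of_odd h hn]

theorem s58_Φ_eval_of_odd (h : W.toAffine.Equation x y) {n : ℤ} (hn : Odd n) :
    (W.Φ n).eval x = x * dpv W x y n ^ 2 - dpv W x y (n + 1) * dpv W x y (n - 1) := by
  have he1 : Even (n + 1) := hn.add_one
  have he2 : Even (n - 1) := hn.sub_odd odd_one
  rw [WeierstrassCurve.Φ, if_neg (Int.not_even_iff_odd.2 hn), eval_sub, eval_mul, eval_X,
    eval_mul, eval_mul, s58_ΨSq_eval_of_odd h hn, dpe_dpv_of_even h he1, dpe_dpv_of_even h he2,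
    dpe_Ψ₂Sq_eval h]
  ring

end eval

section div

variable {K : Type*} [Field K] [DecidableEq K] {W : Affine K}

/-- the relation `(x - xQ) ψ_lam² = ψ_{lam+1} ψ_{lam-1}` -/
theorem s58_root_rel {lam : ℕ} (hodd : Odd (lam : ℤ)) {x y xQ : K} (h : W.Equation x y)
    (hroot : (W.Φ lam).eval x = xQ * (W.ΨSq lam).eval x) :
    (x - xQ) * dpv W x y lam ^ 2 = dpv W x y ((lam : ℤ) + 1) * dpv W x y ((lam : ℤ) - 1) := by
  rw [s58_Φ_eval_of_odd h hodd, s58_ΨSq_eval_of_odd h hodd] at hroot
  linear_combination hroot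

theorem s58_div_of_root {lam : ℕ} (hlam : lam = 3 ∨ lam = 5) {x y xQ yQ : K}
    (h : W.Nonsingular x y) (hQ : W.Nonsingular xQ yQ)
    (hQord : ∀ r : ℕ, 1 ≤ r → r < lam → r • Point.some xQ yQ hQ ≠ 0)
    (hroot : (W.Φ lam).eval x = xQ * (W.ΨSq lam).eval x) :
    lam • Point.some x y h = Point.some xQ yQ hQ ∨
      lam • Point.some x y h = -Point.some xQ yQ hQ := by
  have hprime : lam.Prime := by rcases hlam with rfl | rfl <;> norm_num
  have hodd : Odd (lam : ℤ) := by rcases hlam with rfl | rfl <;> decide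
  have hrel := s58_root_rel hodd h.1 hroot
  have hP0 : Point.some x y h ≠ 0 := Point.some_ne_zero h
  have hQ0 : Point.some xQ yQ hQ ≠ 0 := Point.some_ne_zero hQ
  by_cases hall : ∀ k : ℕ, 1 ≤ k → k ≤ lam → k • Point.some x y h ≠ 0
  · -- Case A
    obtain ⟨h1, -, h3, -⟩ := dpv_first_zero h lam hall
    have hψ : dpv W x y lam ≠ 0 := h1 lam hprime.one_le le_rfl
    have hx := h3 lam hprime.one_le le_rfl
    have hxc : xc (lam • Point.some x y h) = xQ := by
      have e : x - xc (lam • Point.some x y h) = x - xQ := by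
        rw [hx, div_eq_iff (pow_ne_zero 2 hψ)]
        exact hrel.symm
      linear_combination -e
    have hlP : lam • Point.some x y h ≠ 0 := hall lam hprime.one_le le_rfl
    exact (dpc_xc_eq_iff hlP hQ0).1 (by rw [hxc]; rfl)
  · -- Case B
    exfalso
    push Not at hall
    have hex : ∃ k : ℕ, 1 ≤ k ∧ k • Point.some x y h = 0 := by
      obtain ⟨k, hk1, -, hk0⟩ := hall
      exact ⟨k, hk1, hk0⟩
    classical
    obtain ⟨r, ⟨hr1, hr0⟩, hmin'⟩ : ∃ r : ℕ, (1 ≤ r ∧ r • Point.some x y h = 0) ∧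
        ∀ k < r, ¬ (1 ≤ k ∧ k • Point.some x y h = 0) :=
      ⟨Nat.find hex, Nat.find_spec hex, fun k hk => Nat.find_min hex hk⟩
    have hmin : ∀ k : ℕ, 1 ≤ k → k < r → k • Point.some x y h ≠ 0 := fun k hk1 hkr hk0 =>
      hmin' k hkr ⟨hk1, hk0⟩
    have hrl : r ≤ lam := by
      obtain ⟨k, hk1, hkp, hk0⟩ := hall
      by_contra hlt
      exact hmin' k (by omega) ⟨hk1, hk0⟩
    have hr2 : 2 ≤ r := by
      rcases Nat.lt_or_ge r 2 with hlt | hge
      · have : r = 1 := by omega
        rw [this, one_smul] at hr0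
        exact absurd hr0 hP0
      · exact hge
    obtain ⟨hlt, hz, hsucc⟩ := dpe_basic h hr2 hmin hr0
    rcases eq_or_lt_of_le hrl with hrl' | hrl'
    · -- `r = lam`
      subst hrl'
      have h1 : dpv W x y ((r : ℤ) - 1) ≠ 0 := by
        have := hlt (r - 1) (by omega) (by omega)
        rwa [Nat.cast_sub (by omega), Nat.cast_one] at this
      rw [hz] at hrel
      have : dpv W x y ((r : ℤ) + 1) * dpv W x y ((r : ℤ) - 1) = 0 := by
        rw [← hrel]; ring
      exact mul_ne_zero hsucc h1 this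
    · -- `r < lam`
      have hψ : dpv W x y lam ≠ 0 := by
        refine dpv_ne_zero_of_not_dvd h hr2 hmin hr0 ?_
        rw [Int.natCast_dvd_natCast]
        intro hd
        rcases (Nat.dvd_prime hprime).1 hd with h1 | h1 <;> omega
      have h2eq : dpv W x y 2 = 2 * y + W.a₁ * x + W.a₃ := dpe_dpv_two W x y
      have hprod : dpv W x y ((lam : ℤ) + 1) * dpv W x y ((lam : ℤ) - 1) = 0 := by
        rcases hlam with rfl | rfl
        · -- `lam = 3`, `r = 2`
          have hr : r = 2 := by omega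
          subst hr
          have h2 : dpv W x y 2 = 0 := by exact_mod_cast hz
          have e : ((3 : ℕ) : ℤ) - 1 = 2 := by norm_num
          rw [e, h2, mul_zero]
        · -- `lam = 5`
          have e1 : ((5 : ℕ) : ℤ) - 1 = 4 := by norm_num
          have e2 : ((5 : ℕ) : ℤ) + 1 = 6 := by norm_num
          rw [e1, e2]
          interval_cases r
          · -- `r = 2`
            have h2 : dpv W x y 2 = 0 := by exact_mod_cast hz
            have h4 : dpv W x y 4 = 0 := by
              rw [dpe_dpv_four, ← h2eq, h2, mul_zero]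
            rw [h4, mul_zero]
          · -- `r = 3`
            have h3 : dpv W x y 3 = 0 := by exact_mod_cast hz
            have h2 : dpv W x y 2 ≠ 0 := by
              have := hlt 2 (by omega) (by omega)
              exact_mod_cast this
            have e := dpv_even W x y 3
            rw [h3] at e
            have e' : dpv W x y 6 * dpv W x y 2 = 0 := by
              have e6 : (2 * 3 : ℤ) = 6 := by norm_num
              rw [e6] at e
              rw [e]; ring
            have h6 : dpv W x y 6 = 0 := (mul_eq_zero.1 e').resolve_right h2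
            rw [h6, zero_mul]
          · -- `r = 4`
            have h4 : dpv W x y 4 = 0 := by exact_mod_cast hz
            rw [h4, mul_zero]
      have hxx : x = xQ := by
        rw [hprod] at hrel
        exact sub_eq_zero.1 ((mul_eq_zero.1 hrel).resolve_right (pow_ne_zero 2 hψ))
      have hPQ : Point.some x y h = Point.some xQ yQ hQ ∨
          Point.some x y h = -Point.some xQ yQ hQ :=
        (dpc_xc_eq_iff hP0 hQ0).1 (by show x = xQ; exact hxx)
      rcases hPQ with e | e
      · exact hQord r (by omega) hrl' (by rw [← e]; exact hr0)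
      · apply hQord r (by omega) hrl'
        have h5 : r • Point.some x y h = -(r • Point.some xQ yQ hQ) := by rw [e, smul_neg]
        rw [hr0] at h5
        exact neg_eq_zero.1 h5.symm

end div

section group

variable {G : Type*} [AddCommGroup G]

theorem s58_prime_dvd_of_zsmul {p : ℕ} (hp : p.Prime) {x : G} (hx : x ≠ 0) (hpx : p • x = 0)
    (m : ℤ) (hm : m • x = 0) : (p : ℤ) ∣ m := by
  have h1 : addOrderOf x ∣ p := addOrderOf_dvd_of_nsmul_eq_zero hpx
  rcases (Nat.dvd_prime hp).1 h1 with h | h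
  · exact absurd (AddMonoid.addOrderOf_eq_one_iff.1 h) hx
  · rw [← h]
    exact addOrderOf_dvd_iff_zsmul_eq_zero.2 hm

/-- exact order `p ^ n`, in the form consumed by `Transport` -/
def S58Exact (p n : ℕ) (P : G) : Prop :=
  p ^ n • P = 0 ∧ ∀ m : ℤ, m • P = 0 → ((p ^ n : ℕ) : ℤ) ∣ m

theorem s58_exact_one {p : ℕ} (hp : p.Prime) {x : G} (hx : x ≠ 0) (hpx : p • x = 0) :
    S58Exact p 1 x := by
  refine ⟨by rwa [pow_one], fun m hm => ?_⟩
  rw [pow_one]
  exact s58_prime_dvd_of_zsmul hp hx hpx m hm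

theorem s58_exact_ne_zero {p : ℕ} (hp : p.Prime) {n : ℕ} (hn : 1 ≤ n) {P : G}
    (hP : S58Exact p n P) : P ≠ 0 := by
  intro h0
  have := hP.2 1 (by rw [h0, smul_zero])
  have h2 : p ^ n ∣ 1 := by exact_mod_cast this
  have h3 : p ^ n = 1 := Nat.dvd_one.1 h2
  have h4 : 1 < p ^ n := Nat.one_lt_pow (by omega) hp.one_lt
  omega

theorem s58_exact_neg {p n : ℕ} {P : G} (hP : S58Exact p n P) : S58Exact p n (-P) := by
  refine ⟨by rw [smul_neg, hP.1, neg_zero], fun m hm => hP.2 m ?_⟩
  rw [smul_neg, neg_eq_zero] at hm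
  exact hm

theorem s58_exact_small {p : ℕ} (hp : p.Prime) {n : ℕ} (hn : 1 ≤ n) {P : G}
    (hP : S58Exact p n P) (r : ℕ) (hr1 : 1 ≤ r) (hr : r < p) : r • P ≠ 0 := by
  intro h0
  have := hP.2 r (by rw [natCast_zsmul]; exact h0)
  have h2 : p ^ n ∣ r := by exact_mod_cast this
  have h3 : p ^ n ≤ r := Nat.le_of_dvd (by omega) h2
  have h4 : p ≤ p ^ n := by
    calc p = p ^ 1 := (pow_one p).symm
      _ ≤ p ^ n := Nat.pow_le_pow_right hp.pos hn
  omega

theorem s58_exact_step {p : ℕ} (hp : p.Prime) {n : ℕ} (hn : 1 ≤ n) {P Q : G} (hPQ : p • P = Q)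
    (hQ : S58Exact p n Q) : S58Exact p (n + 1) P := by
  obtain ⟨hQ0, hQe⟩ := hQ
  have h1 : p ^ (n + 1) • P = 0 := by
    rw [pow_succ, mul_smul, hPQ, hQ0]
  refine ⟨h1, fun m hm => ?_⟩
  have hmQ : m • Q = 0 := by
    rw [← hPQ, smul_comm, hm, smul_zero]
  obtain ⟨m', rfl⟩ := hQe m hmQ
  -- `T = p ^ n • P` has exact order `p`
  have hT0 : p ^ n • P ≠ 0 := by
    intro h0
    obtain ⟨k, rfl⟩ : ∃ k, n = k + 1 := ⟨n - 1, by omega⟩
    have h2 : p ^ k • Q = 0 := by
      rw [← hPQ, ← mul_smul, ← pow_succ]; exact h0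
    have := hQe (p ^ k : ℕ) (by rw [natCast_zsmul]; exact h2)
    have h3 : p ^ (k + 1) ∣ p ^ k := by exact_mod_cast this
    have h4 : p ^ (k + 1) ≤ p ^ k := Nat.le_of_dvd (pow_pos hp.pos k) h3
    have h5 : p ^ k < p ^ (k + 1) := Nat.pow_lt_pow_right hp.one_lt (by omega)
    omega
  have hpT : p • (p ^ n • P) = 0 := by
    rw [smul_comm, hPQ, hQ0]
  have hmT : m' • (p ^ n • P) = 0 := by
    rw [← natCast_zsmul (P) (p ^ n), ← mul_smul, mul_comm]; exact hm
  obtain ⟨m'', rfl⟩ := s58_prime_dvd_of_zsmul hp hT0 hpT m' hmT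
  refine ⟨m'', ?_⟩
  push_cast
  ring

end group

section chain

variable {K : Type*} [Field K] [DecidableEq K] [IsAlgClosed K] {W : Affine K}

/-- existence of a root of `Φ_n - c ΨSq_n` -/
theorem s58_exists_root_step (W : Affine K) {n : ℤ} (hn : n ≠ 0) (c : K) :
    ∃ x : K, (W.Φ n).eval x = c * (W.ΨSq n).eval x := by
  have hpos : 0 < n.natAbs ^ 2 := pow_pos (Int.natAbs_pos.2 hn) 2
  have hdeg : (W.Φ n - C c * W.ΨSq n).natDegree = n.natAbs ^ 2 := by
    rw [natDegree_sub_eq_left_of_natDegree_lt, W.natDegree_Φ]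
    rw [W.natDegree_Φ]
    calc (C c * W.ΨSq n).natDegree ≤ (W.ΨSq n).natDegree := natDegree_C_mul_le _ _
      _ ≤ n.natAbs ^ 2 - 1 := W.natDegree_ΨSq_le n
      _ < n.natAbs ^ 2 := by omega
  have hd : (W.Φ n - C c * W.ΨSq n).degree ≠ 0 :=
    (natDegree_pos_iff_degree_pos.1 (by rw [hdeg]; exact hpos)).ne'
  obtain ⟨x, hx⟩ := IsAlgClosed.exists_root _ hd
  refine ⟨x, ?_⟩
  rw [IsRoot.def, eval_sub, eval_mul, eval_C] at hx
  exact sub_eq_zero.1 hx

theorem s58_xc_neg (P : W.Point) : xc (-P) = xc P := by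
  cases P with
  | zero => rfl
  | some x y h => rfl

/-- **points of exact order `lam ^ n` with controlled `x`-coordinates** -/
theorem s58_chain (hΔ : W.Δ ≠ 0) {lam : ℕ} (hlam : lam = 3 ∨ lam = 5) (good : K → Prop)
    (h0 : ∃ x, good x ∧ (W.preΨ lam).eval x = 0)
    (hstep : ∀ c, good c → ∃ x, good x ∧ (W.Φ lam).eval x = c * (W.ΨSq lam).eval x)
    (n : ℕ) (hn : 1 ≤ n) :
    ∃ P : W.Point, P ≠ 0 ∧ good (xc P) ∧ S58Exact lam n P := by
  have hprime : lam.Prime := by rcases hlam with rfl | rfl <;> norm_num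
  have hp2 : lam ≠ 2 := by rcases hlam with rfl | rfl <;> norm_num
  induction n, hn using Nat.le_induction with
  | base =>
    obtain ⟨x, hgx, hx⟩ := h0
    obtain ⟨P, hP0, hpP, hxP⟩ := (eval_preΨ_eq_zero_iff hΔ hprime hp2 x).mp hx
    exact ⟨P, hP0, by rw [hxP]; exact hgx, s58_exact_one hprime hP0 hpP⟩
  | succ n hn ih =>
    obtain ⟨Q, hQ0, hgQ, hQe⟩ := ih
    cases Q with
    | zero => exact absurd rfl hQ0
    | some xQ yQ hQ =>
      obtain ⟨x, hgx, hx⟩ := hstep xQ hgQ
      obtain ⟨y, hy⟩ := dpf_exists_equation W x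
      have hns : W.Nonsingular x y := (Affine.equation_iff_nonsingular_of_Δ_ne_zero hΔ).mp hy
      rcases s58_div_of_root hlam hns hQ (s58_exact_small hprime hn hQe) hx with e | e
      · exact ⟨Point.some x y hns, Point.some_ne_zero hns, hgx, s58_exact_step hprime hn e hQe⟩
      · refine ⟨-Point.some x y hns, neg_ne_zero.2 (Point.some_ne_zero hns), ?_, ?_⟩
        · rw [s58_xc_neg]; exact hgx
        · refine s58_exact_step hprime hn ?_ hQe
          rw [smul_neg, e, neg_neg]

end chain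

end Fermat.Agent.S58
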