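import Mathlib
import Fermat.Prelude.Def_FLTPrelim_Modularity
import Fermat.Prelude.Def_FLTPrelim_Ramification
import Fermat.Prelude.Def_FLTPrelim_GaloisRep
import Fermat.Agent.S05.Main
import Fermat.Agent.S05.Inertia
import Fermat.Agent.S05.VariableChangeGalois
import Fermat.Agent.S41.NE.Red
import Fermat.Agent.S58.Tors
import Fermat.Agent.S58.Node
import Fermat.Agent.S58.Root

set_option autoImplicit false
set_option linter.unusedVariables false
set_option linter.unusedSectionVars false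

/-!
# S58 / Loc: inertia-fixed points of exact order `lam ^ n` on a semistable curve

`W` a semistable Weierstrass curve over `ℤ`, `q` a prime, `lam ∈ {3, 5}`, `lam ≠ q`, `A` a valuation
subring of `ℚ̄` over `q`: for every `n` there is a point of `W(ℚ̄)` of exact order `lam ^ n` fixed by
the inertia group of `A` (`s58_local`).
-/

namespace Fermat.Agent.S58

open WeierstrassCurve WeierstrassCurve.Affine Polynomial
open Fermat.Agent.S05 Fermat.Agent.S13 Fermat.Agent.S41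

section valsub

variable {L : Type*} [Field L] [DecidableEq L] {A : ValuationSubring L} {W : Affine L}

/-- two torsion points with the same reduction, nonsingular at one of them, are equal -/
theorem s58l_eq_of_congr (hW : IsIntegralAt A W) {n : ℕ}
    (hn0 : (n : L) ≠ 0) (hn : ((n : L))⁻¹ ∈ A) {x y x' y' : L} (h : W.Nonsingular x y)
    (h' : W.Nonsingular x' y') (hT : n • Point.some x y h = 0)
    (hT' : n • Point.some x' y' h' = 0) (hxx : x - x' ∈ A.nonunits)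
    (hyy : y - y' ∈ A.nonunits)
    (hns : ¬ (W.polynomialX.evalEval x y ∈ A.nonunits ∧
      W.polynomialY.evalEval x y ∈ A.nonunits)) :
    Point.some x y h = Point.some x' y' h' := by
  have hx := s41ner_x_mem_of_torsion hW hn0 hn h hT
  have hy := s41ner_y_mem_of_torsion hW hn0 hn h hT
  have hx' := s41ner_x_mem_of_torsion hW hn0 hn h' hT'
  have hy' := s41ner_y_mem_of_torsion hW hn0 hn h' hT'
  have hker : InKerRed A W (Point.some x y h - Point.some x' y' h') := by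
    rcases sameRed_sub A W hW.1 hW.2.1 hW.2.2.1 hW.2.2.2.1 h h' hx hy hx' hy' hxx hyy hns with
      h0 | ⟨x₃, y₃, h₃, e, hx₃⟩
    · rw [h0]; exact inKerRed_zero
    · rw [e]; exact (inKerRed_some h₃).2 hx₃
  have hsub : n • (Point.some x y h - Point.some x' y' h') = 0 := by
    rw [smul_sub, hT, hT', sub_zero]
  exact sub_eq_zero.1 (kerRed_torsion_free hW hn0 hn hker hsub)

omit [DecidableEq L] in
theorem s58l_nu_of_add {a b : L} (ha : a ∈ A.nonunits) (hab : a + b ∈ A.nonunits) :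
    b ∈ A.nonunits := by
  have := samered_nu_sub A hab ha
  rwa [add_sub_cancel_left] at this

omit [DecidableEq L] in
theorem s58l_nu_of_mul_unit {a b : L} (ha : a ∈ A) (hau : a ∉ A.nonunits) (hb : b ∈ A)
    (hab : a * b ∈ A.nonunits) : b ∈ A.nonunits := by
  rcases s41ner_nonunits_of_mul A ha hb hab with h | h
  · exact absurd h hau
  · exact h

omit [DecidableEq L] in
/-- **nodal criterion**: if `b₄, b₆ ∈ 𝔪` and `b₂` is a unit, an integral point with unit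
`x`-coordinate has nonsingular reduction -/
theorem s58l_ns_of_unit_x (hW : IsIntegralAt A W) (hb₂ : W.b₂ ∉ A.nonunits)
    (hb₄ : W.b₄ ∈ A.nonunits) (hb₆ : W.b₆ ∈ A.nonunits) {x y : L} (h : W.Equation x y)
    (hx : x ∈ A) (hy : y ∈ A) (hxu : x ∉ A.nonunits) :
    ¬ (W.polynomialX.evalEval x y ∈ A.nonunits ∧ W.polynomialY.evalEval x y ∈ A.nonunits) := by
  rintro ⟨hX, hY⟩
  rw [evalEval_polynomialX] at hX
  rw [evalEval_polynomialY] at hY
  obtain ⟨h₁, h₂, h₃, h₄, h₆⟩ := hW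
  have hb₂A : W.b₂ ∈ A := by
    rw [WeierstrassCurve.b₂]
    exact add_mem (pow_mem h₁ 2) (mul_mem (ofNat_mem A 4) h₂)
  -- `Ψ₂Sq(x) = pY²`
  have e1 : 4 * x ^ 3 + W.b₂ * x ^ 2 + 2 * W.b₄ * x + W.b₆ = (2 * y + W.a₁ * x + W.a₃) ^ 2 := by
    have := dpe_Ψ₂Sq_eval (W := W) h
    simp only [Ψ₂Sq, eval_add, eval_mul, eval_C, eval_pow, eval_X] at this
    linear_combination this
  -- `6x² + b₂x + b₄ = -2 pX + a₁ pY`
  have e2 : 6 * x ^ 2 + W.b₂ * x + W.b₄ =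
      -2 * (W.a₁ * y - (3 * x ^ 2 + 2 * W.a₂ * x + W.a₄)) + W.a₁ * (2 * y + W.a₁ * x + W.a₃) := by
    rw [WeierstrassCurve.b₂, WeierstrassCurve.b₄]; ring
  have hpYA : 2 * y + W.a₁ * x + W.a₃ ∈ A := A.nonunits_subset hY
  have m1 : x ^ 2 * (4 * x + W.b₂) ∈ A.nonunits := by
    have h1 : (2 * y + W.a₁ * x + W.a₃) ^ 2 ∈ A.nonunits := by
      rw [pow_two]; exact samered_nu_mul_left A hpYA hY
    rw [← e1] at h1
    have h2 : 2 * W.b₄ * x + W.b₆ ∈ A.nonunits :=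
      samered_nu_add A (samered_nu_mul_right A (samered_nu_mul_left A (ofNat_mem A 2) hb₄) hx) hb₆
    have h3 : (2 * W.b₄ * x + W.b₆) + x ^ 2 * (4 * x + W.b₂) ∈ A.nonunits := by
      have : (2 * W.b₄ * x + W.b₆) + x ^ 2 * (4 * x + W.b₂) =
          4 * x ^ 3 + W.b₂ * x ^ 2 + 2 * W.b₄ * x + W.b₆ := by ring
      rw [this]; exact h1
    exact s58l_nu_of_add h2 h3
  have m2 : x * (6 * x + W.b₂) ∈ A.nonunits := by
    have h1 : 6 * x ^ 2 + W.b₂ * x + W.b₄ ∈ A.nonunits := by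
      rw [e2]
      exact samered_nu_add A (samered_nu_mul_left A (neg_mem (ofNat_mem A 2)) hX)
        (samered_nu_mul_left A h₁ hY)
    have h3 : W.b₄ + x * (6 * x + W.b₂) ∈ A.nonunits := by
      have : W.b₄ + x * (6 * x + W.b₂) = 6 * x ^ 2 + W.b₂ * x + W.b₄ := by ring
      rw [this]; exact h1
    exact s58l_nu_of_add hb₄ h3
  have hx2 : x ^ 2 ∈ A := pow_mem hx 2
  have hx2u : x ^ 2 ∉ A.nonunits := by
    intro h0
    rw [pow_two] at h0
    exact hxu (s58l_nu_of_mul_unit hx hxu hx h0)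
  have k1 : 4 * x + W.b₂ ∈ A.nonunits :=
    s58l_nu_of_mul_unit hx2 hx2u (add_mem (mul_mem (ofNat_mem A 4) hx) hb₂A) m1
  have k2 : 6 * x + W.b₂ ∈ A.nonunits :=
    s58l_nu_of_mul_unit hx hxu (add_mem (mul_mem (ofNat_mem A 6) hx) hb₂A) m2
  have k3 : 2 * x ∈ A.nonunits := by
    have := samered_nu_sub A k2 k1
    have e : 6 * x + W.b₂ - (4 * x + W.b₂) = 2 * x := by ring
    rwa [e] at this
  have k4 : 4 * x ∈ A.nonunits := by
    have := samered_nu_mul_left A (ofNat_mem A 2) k3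
    have e : (2 : L) * (2 * x) = 4 * x := by ring
    rwa [e] at this
  exact hb₂ (s58l_nu_of_add k4 k1)

end valsub

section galois

local notation "Qb" => AlgebraicClosure ℚ

/-- **(F1)** a torsion point of order prime to the residue characteristic with nonsingular
reduction is fixed by inertia -/
theorem s58l_fixed (W' : Affine ℚ) (A : ValuationSubring Qb) (hint : IsIntegralAt A (W'⁄Qb))
    {n : ℕ} (hn0 : (n : Qb) ≠ 0) (hn : ((n : Qb))⁻¹ ∈ A) {x y : Qb}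
    (h : (W'⁄Qb).Nonsingular x y) (hT : n • Point.some x y h = 0)
    (hns : ¬ ((W'⁄Qb).polynomialX.evalEval x y ∈ A.nonunits ∧
      (W'⁄Qb).polynomialY.evalEval x y ∈ A.nonunits))
    (σ : Qb ≃ₐ[ℚ] Qb) (hσ : σ ∈ A.inertiaSubgroupIn ℚ) :
    σ • Point.some x y h = Point.some x y h := by
  have hin := isInertial_of_mem_inertiaSubgroupIn A σ hσ
  have hx := s41ner_x_mem_of_torsion hint hn0 hn h hT
  have hy := s41ner_y_mem_of_torsion hint hn0 hn h hT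
  obtain ⟨h', e⟩ := main_map_some W' σ h
  have hsm : σ • Point.some x y h = Point.some (σ x) (σ y) h' := by
    rw [WeierstrassCurve.Affine.Point.algEquiv_smul_def]; exact e
  have hT' : n • Point.some (σ x) (σ y) h' = 0 := by
    rw [← hsm, ← natCast_zsmul, ← WeierstrassCurve.Affine.Point.algEquiv_smul_zsmul,
      natCast_zsmul, hT, smul_zero]
  rw [hsm]
  refine (s58l_eq_of_congr hint hn0 hn h h' hT hT' ?_ ?_ hns).symm
  · have h1 := samered_nu_neg A (hin.sub_mem x hx)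
    rwa [neg_sub] at h1
  · have h1 := samered_nu_neg A (hin.sub_mem y hy)
    rwa [neg_sub] at h1

end galois

section roots

variable {L : Type*} [Field L] [DecidableEq L] (A : ValuationSubring L) (W : WeierstrassCurve ℤ)
  {q : ℕ}

theorem s58l_int_combo (hq : q.Prime) (hA : A.LiesOverPrime q) {u : L} (hu : u ∈ A) {a b : ℤ}
    (ha : (q : ℤ) ∣ a) (hb : ¬ (q : ℤ) ∣ b) :
    u * (a : L) - (b : L) ∉ A.nonunits := by
  intro hcon
  have h1 : u * (a : L) ∈ A.nonunits := samered_nu_mul_left A hu (s41ner_intCast_nonunits hA ha)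
  have h2 : (b : L) ∈ A.nonunits := by
    have := samered_nu_sub A h1 hcon
    rwa [sub_sub_cancel] at this
  have h3 : A.valuation (b : L) = 1 := (valuation_intCast_eq_one_iff A hq hA b).2 hb
  rw [ValuationSubring.mem_nonunits_iff, h3] at h2
  exact lt_irrefl _ h2

theorem s58l_int_mem (u : L) (hu : u ∈ A) (a b : ℤ) : u * (a : L) - (b : L) ∈ A :=
  sub_mem (mul_mem hu (intCast_mem A a)) (intCast_mem A b)

theorem s58l_dvd_iff (hq : q.Prime) (z : ℤ) : (q : ℤ) ∣ z ↔ ((z : ℤ) : ZMod q) = 0 := by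
  haveI : NeZero q := ⟨hq.ne_zero⟩
  exact (ZMod.intCast_zmod_eq_zero_iff_dvd z q).symm

theorem s58l_prime_cast_ne_zero (hq : q.Prime) {lam : ℕ} (hlam : lam.Prime) (hne : lam ≠ q) :
    ((lam : ℕ) : ZMod q) ≠ 0 := by
  intro h0
  rw [ZMod.natCast_eq_zero_iff] at h0
  exact hne ((Nat.prime_dvd_prime_iff_eq hq hlam).1 h0).symm

/-- the reduction of `W` modulo `q` -/
noncomputable abbrev s58lBar (W : WeierstrassCurve ℤ) (q : ℕ) : WeierstrassCurve (ZMod q) :=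
  W.map (Int.castRingHom (ZMod q))

theorem s58l_coeff_Φ (n : ℤ) (i : ℕ) :
    (((W.Φ n).coeff i : ℤ) : ZMod q) = ((s58lBar W q).Φ n).coeff i := by
  rw [s58lBar, WeierstrassCurve.map_Φ, coeff_map, eq_intCast]

theorem s58l_coeff_ΨSq (n : ℤ) (i : ℕ) :
    (((W.ΨSq n).coeff i : ℤ) : ZMod q) = ((s58lBar W q).ΨSq n).coeff i := by
  rw [s58lBar, WeierstrassCurve.map_ΨSq, coeff_map, eq_intCast]

theorem s58l_coeff_preΨ (n : ℤ) (i : ℕ) :
    (((W.preΨ n).coeff i : ℤ) : ZMod q) = ((s58lBar W q).preΨ n).coeff i := by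
  rw [s58lBar, WeierstrassCurve.map_preΨ, coeff_map, eq_intCast]

variable {W}

theorem s58l_bar_b₄ (hq : q.Prime) (h : (q : ℤ) ∣ W.b₄) : (s58lBar W q).b₄ = 0 := by
  rw [s58lBar, WeierstrassCurve.map_b₄, eq_intCast]
  exact (s58l_dvd_iff hq _).1 h

theorem s58l_bar_b₆ (hq : q.Prime) (h : (q : ℤ) ∣ W.b₆) : (s58lBar W q).b₆ = 0 := by
  rw [s58lBar, WeierstrassCurve.map_b₆, eq_intCast]
  exact (s58l_dvd_iff hq _).1 h

theorem s58l_bar_b₈ (hq : q.Prime) (h : (q : ℤ) ∣ W.b₈) : (s58lBar W q).b₈ = 0 := by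
  rw [s58lBar, WeierstrassCurve.map_b₈, eq_intCast]
  exact (s58l_dvd_iff hq _).1 h

theorem s58l_bar_b₂ (hq : q.Prime) (h : ¬ (q : ℤ) ∣ W.b₂) : (s58lBar W q).b₂ ≠ 0 := by
  rw [s58lBar, WeierstrassCurve.map_b₂, eq_intCast]
  exact fun h0 => h ((s58l_dvd_iff hq _).2 h0)

end roots

section rootsAC

variable {L : Type*} [Field L] [DecidableEq L] [IsAlgClosed L] (A : ValuationSubring L)
  {W : WeierstrassCurve ℤ} {q : ℕ}

omit [DecidableEq L] [IsAlgClosed L] in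
theorem s58l_inv_mem {c : L} (hc : c ∉ A.nonunits) : c ≠ 0 ∧ c⁻¹ ∈ A := by
  have hc0 : c ≠ 0 := by
    rintro rfl
    exact hc (s58r_zero_mem_nonunits A)
  refine ⟨hc0, ?_⟩
  rw [ValuationSubring.mem_nonunits_iff, not_lt] at hc
  rw [← A.valuation_le_one_iff, map_inv₀]
  have hpos : 0 < A.valuation c := by
    rw [zero_lt_iff, ne_eq, map_eq_zero]; exact hc0
  exact (inv_le_one₀ hpos).mpr hc

/-- a root outside the maximal ideal of `u P - Q` for `P, Q ∈ ℤ[X]` with two controlled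
coefficients -/
theorem s58l_root_generic (hq : q.Prime) (hA : A.LiesOverPrime q) (P Q : ℤ[X]) {u : L}
    (hu : u ∈ A) {i j : ℕ} (hij : i ≠ j)
    (hPi : (q : ℤ) ∣ P.coeff i) (hPj : (q : ℤ) ∣ P.coeff j)
    (hQi : ¬ (q : ℤ) ∣ Q.coeff i) (hQj : ¬ (q : ℤ) ∣ Q.coeff j) :
    ∃ x : L, x ∉ A.nonunits ∧
      u * (P.map (Int.castRingHom L)).eval x = (Q.map (Int.castRingHom L)).eval x := by
  set G : L[X] := C u * P.map (Int.castRingHom L) - Q.map (Int.castRingHom L) with hG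
  have hcoeff : ∀ k, G.coeff k = u * ((P.coeff k : ℤ) : L) - ((Q.coeff k : ℤ) : L) := by
    intro k
    rw [hG, coeff_sub, coeff_C_mul, coeff_map, coeff_map, eq_intCast, eq_intCast]
  obtain ⟨x, hx0, hx⟩ := s58r_exists_root A G
    (fun k => by rw [hcoeff]; exact s58l_int_mem A u hu _ _) hij
    (by rw [hcoeff]; exact s58l_int_combo A hq hA hu hPi hQi)
    (by rw [hcoeff]; exact s58l_int_combo A hq hA hu hPj hQj)
  refine ⟨x, hx, ?_⟩
  rw [hG, eval_sub, eval_mul, eval_C] at hx0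
  exact sub_eq_zero.1 hx0

/-- base step: a root of `preΨ_lam` outside the maximal ideal -/
theorem s58l_base_root (hq : q.Prime) (hA : A.LiesOverPrime q) {lam : ℕ}
    (hlam : lam = 3 ∨ lam = 5) (hne : lam ≠ q) (hb2 : ¬ (q : ℤ) ∣ W.b₂)
    (hb4 : (q : ℤ) ∣ W.b₄) (hb6 : (q : ℤ) ∣ W.b₆) (hb8 : (q : ℤ) ∣ W.b₈) :
    ∃ x : L, x ∉ A.nonunits ∧ ((W.map (Int.castRingHom L)).preΨ lam).eval x = 0 := by
  have h4 := s58l_bar_b₄ hq hb4
  have h6 := s58l_bar_b₆ hq hb6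
  have h8 := s58l_bar_b₈ hq hb8
  have h2 := s58l_bar_b₂ hq hb2
  haveI : Fact q.Prime := ⟨hq⟩
  rcases hlam with rfl | rfl
  · have e3 : ((3 : ℕ) : ℤ) = 3 := by norm_num
    have hl := s58l_prime_cast_ne_zero hq Nat.prime_three hne
    obtain ⟨x, hx, e⟩ := s58l_root_generic A hq hA 0 (W.preΨ 3) (u := 0) A.zero_mem
      (i := 3) (j := 4) (by norm_num) (by simp) (by simp)
      (by
        rw [s58l_dvd_iff hq, s58l_coeff_preΨ, s58n_coeff_preΨ_three_three h4 h6 h8]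
        exact h2)
      (by
        rw [s58l_dvd_iff hq, s58l_coeff_preΨ, s58n_coeff_preΨ_three_four h4 h6 h8]
        exact_mod_cast hl)
    refine ⟨x, hx, ?_⟩
    rw [e3, WeierstrassCurve.map_preΨ, ← e, zero_mul]
  · have e5 : ((5 : ℕ) : ℤ) = 5 := by norm_num
    have hl := s58l_prime_cast_ne_zero hq Nat.prime_five hne
    obtain ⟨x, hx, e⟩ := s58l_root_generic A hq hA 0 (W.preΨ 5) (u := 0) A.zero_mem
      (i := 10) (j := 12) (by norm_num) (by simp) (by simp)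
      (by
        rw [s58l_dvd_iff hq, s58l_coeff_preΨ, s58n_coeff_preΨ_five_ten h4 h6 h8]
        exact pow_ne_zero 2 h2)
      (by
        rw [s58l_dvd_iff hq, s58l_coeff_preΨ, s58n_coeff_preΨ_five_twelve h4 h6 h8]
        exact_mod_cast hl)
    refine ⟨x, hx, ?_⟩
    rw [e5, WeierstrassCurve.map_preΨ, ← e, zero_mul]

/-- division step: a root of `Φ_lam - c ΨSq_lam` outside the maximal ideal, for `c ∉ 𝔪` -/
theorem s58l_step_root (hq : q.Prime) (hA : A.LiesOverPrime q) {lam : ℕ}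
    (hlam : lam = 3 ∨ lam = 5) (hne : lam ≠ q) (hb2 : ¬ (q : ℤ) ∣ W.b₂)
    (hb4 : (q : ℤ) ∣ W.b₄) (hb6 : (q : ℤ) ∣ W.b₆) (hb8 : (q : ℤ) ∣ W.b₈)
    (c : L) (hc : c ∉ A.nonunits) :
    ∃ x : L, x ∉ A.nonunits ∧ ((W.map (Int.castRingHom L)).Φ lam).eval x =
      c * ((W.map (Int.castRingHom L)).ΨSq lam).eval x := by
  have h4 := s58l_bar_b₄ hq hb4
  have h6 := s58l_bar_b₆ hq hb6
  have h8 := s58l_bar_b₈ hq hb8
  have h2 := s58l_bar_b₂ hq hb2
  haveI : Fact q.Prime := ⟨hq⟩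
  obtain ⟨hc0, hcinv⟩ := s58l_inv_mem A hc
  rcases hlam with rfl | rfl
  · have e3 : ((3 : ℕ) : ℤ) = 3 := by norm_num
    have hl := s58l_prime_cast_ne_zero hq Nat.prime_three hne
    obtain ⟨x, hx, e⟩ := s58l_root_generic A hq hA (W.Φ 3) (W.ΨSq 3) hcinv
      (i := 6) (j := 8) (by norm_num)
      (by rw [s58l_dvd_iff hq, s58l_coeff_Φ, s58n_coeff_Φ_three h4 h6 h8 6 (by norm_num)])
      (by rw [s58l_dvd_iff hq, s58l_coeff_Φ, s58n_coeff_Φ_three h4 h6 h8 8 (by norm_num)])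
      (by
        rw [s58l_dvd_iff hq, s58l_coeff_ΨSq, s58n_coeff_ΨSq_three_six h4 h6 h8]
        exact pow_ne_zero 2 h2)
      (by
        rw [s58l_dvd_iff hq, s58l_coeff_ΨSq, s58n_coeff_ΨSq_three_eight h4 h6 h8]
        have : (9 : ZMod q) = ((3 : ℕ) : ZMod q) ^ 2 := by norm_num
        rw [this]
        exact pow_ne_zero 2 hl)
    refine ⟨x, hx, ?_⟩
    rw [e3, WeierstrassCurve.map_Φ, WeierstrassCurve.map_ΨSq, ← e, ← mul_assoc,
      mul_inv_cancel₀ hc0, one_mul]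
  · have e5 : ((5 : ℕ) : ℤ) = 5 := by norm_num
    have hl := s58l_prime_cast_ne_zero hq Nat.prime_five hne
    obtain ⟨x, hx, e⟩ := s58l_root_generic A hq hA (W.Φ 5) (W.ΨSq 5) hcinv
      (i := 20) (j := 24) (by norm_num)
      (by rw [s58l_dvd_iff hq, s58l_coeff_Φ, s58n_coeff_Φ_five h4 h6 h8 20 (by norm_num)])
      (by rw [s58l_dvd_iff hq, s58l_coeff_Φ, s58n_coeff_Φ_five h4 h6 h8 24 (by norm_num)])
      (by
        rw [s58l_dvd_iff hq, s58l_coeff_ΨSq, s58n_coeff_ΨSq_five_twenty h4 h6 h8]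
        exact pow_ne_zero 4 h2)
      (by
        rw [s58l_dvd_iff hq, s58l_coeff_ΨSq, s58n_coeff_ΨSq_five_twentyfour h4 h6 h8]
        have : (25 : ZMod q) = ((5 : ℕ) : ZMod q) ^ 2 := by norm_num
        rw [this]
        exact pow_ne_zero 2 hl)
    refine ⟨x, hx, ?_⟩
    rw [e5, WeierstrassCurve.map_Φ, WeierstrassCurve.map_ΨSq, ← e, ← mul_assoc,
      mul_inv_cancel₀ hc0, one_mul]

end rootsAC

section translate

theorem s58l_translate_field {F : Type*} [Field F] (b2 b4 b6 b8 : F)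
    (hrel : 4 * b8 = b2 * b6 - b4 ^ 2)
    (hΔ : -b2 ^ 2 * b8 - 8 * b4 ^ 3 - 27 * b6 ^ 2 + 9 * b2 * b4 * b6 = 0)
    (hc : b2 ^ 2 - 24 * b4 ≠ 0) :
    ∃ r : F, b4 + r * b2 + 6 * r ^ 2 = 0 ∧ b6 + 2 * r * b4 + r ^ 2 * b2 + 4 * r ^ 3 = 0 := by
  set c4 := b2 ^ 2 - 24 * b4 with hc4
  have hr : c4 * ((18 * b6 - b2 * b4) / c4) = 18 * b6 - b2 * b4 := mul_div_cancel₀ _ hc
  refine ⟨(18 * b6 - b2 * b4) / c4, ?_, ?_⟩
  · set r := (18 * b6 - b2 * b4) / c4 with hrdef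
    have key : c4 ^ 2 * (b4 + r * b2 + 6 * r ^ 2) = 0 := by
      have e : c4 ^ 2 * (b4 + r * b2 + 6 * r ^ 2) =
          c4 ^ 2 * b4 + c4 * b2 * (c4 * r) + 6 * (c4 * r) ^ 2 := by ring
      rw [e, hr, hc4]
      linear_combination (-72) * hΔ + (-18 * b2 ^ 2) * hrel
    exact (mul_eq_zero.1 key).resolve_left (pow_ne_zero 2 hc)
  · set r := (18 * b6 - b2 * b4) / c4 with hrdef
    have key : c4 ^ 3 * (b6 + 2 * r * b4 + r ^ 2 * b2 + 4 * r ^ 3) = 0 := by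
      have e : c4 ^ 3 * (b6 + 2 * r * b4 + r ^ 2 * b2 + 4 * r ^ 3) =
          c4 ^ 3 * b6 + 2 * c4 ^ 2 * (c4 * r) * b4 + c4 * (c4 * r) ^ 2 * b2
            + 4 * (c4 * r) ^ 3 := by
        ring
      rw [e, hr, hc4]
      linear_combination (4 * (-b2 ^ 3 + 36 * b2 * b4 - 216 * b6)) * hΔ +
        (b2 ^ 2 * (-b2 ^ 3 + 36 * b2 * b4 - 216 * b6)) * hrel
    exact (mul_eq_zero.1 key).resolve_left (pow_ne_zero 3 hc)

/-- the translation `x ↦ x + r` -/
def s58lTr (r : ℤ) : VariableChange ℤ := ⟨1, r, 0, 0⟩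

theorem s58lTr_b₂ (W : WeierstrassCurve ℤ) (r : ℤ) : (s58lTr r • W).b₂ = W.b₂ + 12 * r := by
  rw [variableChange_b₂]; simp [s58lTr]

theorem s58lTr_b₄ (W : WeierstrassCurve ℤ) (r : ℤ) :
    (s58lTr r • W).b₄ = W.b₄ + r * W.b₂ + 6 * r ^ 2 := by
  rw [variableChange_b₄]; simp [s58lTr]

theorem s58lTr_b₆ (W : WeierstrassCurve ℤ) (r : ℤ) :
    (s58lTr r • W).b₆ = W.b₆ + 2 * r * W.b₄ + r ^ 2 * W.b₂ + 4 * r ^ 3 := by
  rw [variableChange_b₆]; simp [s58lTr]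

theorem s58lTr_c₄ (W : WeierstrassCurve ℤ) (r : ℤ) : (s58lTr r • W).c₄ = W.c₄ := by
  rw [variableChange_c₄]; simp [s58lTr]

theorem s58lTr_Δ (W : WeierstrassCurve ℤ) (r : ℤ) : (s58lTr r • W).Δ = W.Δ := by
  rw [variableChange_Δ]; simp [s58lTr]

/-- **moving the node to `x = 0`** -/
theorem s58l_exists_translate (W : WeierstrassCurve ℤ) {q : ℕ} (hq : q.Prime)
    (hΔ : (q : ℤ) ∣ W.Δ) (hc₄ : ¬ (q : ℤ) ∣ W.c₄) :
    ∃ r : ℤ, ¬ (q : ℤ) ∣ (s58lTr r • W).b₂ ∧ (q : ℤ) ∣ (s58lTr r • W).b₄ ∧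
      (q : ℤ) ∣ (s58lTr r • W).b₆ ∧ (q : ℤ) ∣ (s58lTr r • W).b₈ := by
  haveI : Fact q.Prime := ⟨hq⟩
  have hrel : (4 : ZMod q) * (W.b₈ : ZMod q) = (W.b₂ : ZMod q) * W.b₆ - (W.b₄ : ZMod q) ^ 2 := by
    have := congrArg (Int.cast : ℤ → ZMod q) W.b_relation
    push_cast at this
    exact this
  have hΔ0 : -(W.b₂ : ZMod q) ^ 2 * W.b₈ - 8 * (W.b₄ : ZMod q) ^ 3 - 27 * (W.b₆ : ZMod q) ^ 2
      + 9 * W.b₂ * W.b₄ * W.b₆ = 0 := by
    have := (s58l_dvd_iff hq _).1 hΔ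
    rw [WeierstrassCurve.Δ] at this
    push_cast at this
    exact this
  have hc : (W.b₂ : ZMod q) ^ 2 - 24 * (W.b₄ : ZMod q) ≠ 0 := by
    intro h0
    apply hc₄
    rw [s58l_dvd_iff hq, WeierstrassCurve.c₄]
    push_cast
    exact h0
  obtain ⟨rb, h4, h6⟩ := s58l_translate_field _ _ _ _ hrel hΔ0 hc
  obtain ⟨r, rfl⟩ := ZMod.intCast_surjective rb
  have hb4 : (q : ℤ) ∣ (s58lTr r • W).b₄ := by
    rw [s58l_dvd_iff hq, s58lTr_b₄]
    push_cast
    exact h4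
  have hb6 : (q : ℤ) ∣ (s58lTr r • W).b₆ := by
    rw [s58l_dvd_iff hq, s58lTr_b₆]
    push_cast
    exact h6
  have e4 := (s58l_dvd_iff hq _).1 hb4
  have e6 := (s58l_dvd_iff hq _).1 hb6
  -- `c₄' = b₂'²` is a unit
  have hb2 : ((s58lTr r • W).b₂ : ZMod q) ≠ 0 := by
    intro h0
    apply hc₄
    rw [← s58lTr_c₄ W r, s58l_dvd_iff hq, WeierstrassCurve.c₄]
    push_cast
    rw [h0, e4]
    ring
  -- `Δ' = -b₂'² b₈'`
  have hb8 : ((s58lTr r • W).b₈ : ZMod q) = 0 := by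
    have h1 : (q : ℤ) ∣ (s58lTr r • W).Δ := by rw [s58lTr_Δ]; exact hΔ
    have h2 := (s58l_dvd_iff hq _).1 h1
    rw [WeierstrassCurve.Δ] at h2
    push_cast at h2
    rw [e4, e6] at h2
    have h3 : ((s58lTr r • W).b₂ : ZMod q) ^ 2 * ((s58lTr r • W).b₈ : ZMod q) = 0 := by
      linear_combination -h2
    exact (mul_eq_zero.1 h3).resolve_left (pow_ne_zero 2 hb2)
  exact ⟨r, fun h => hb2 ((s58l_dvd_iff hq _).1 h), hb4, hb6, (s58l_dvd_iff hq _).2 hb8⟩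

end translate

section final

local notation "Qb" => AlgebraicClosure ℚ

variable (W : WeierstrassCurve ℤ) {q lam : ℕ}

theorem s58l_Δ_ne_zero (hΔ : W.Δ ≠ 0) : ((W.map (Int.castRingHom ℚ))⁄Qb).Δ ≠ 0 := by
  rw [s41ner_baseChange_eq, WeierstrassCurve.map_Δ, eq_intCast]
  exact_mod_cast hΔ

theorem s58l_lam_facts (hq : q.Prime) (hlam : lam = 3 ∨ lam = 5) (hne : lam ≠ q)
    (A : ValuationSubring Qb) (hA : A.LiesOverPrime q) (n : ℕ) :
    ((lam ^ n : ℕ) : Qb) ≠ 0 ∧ (((lam ^ n : ℕ) : Qb))⁻¹ ∈ A := by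
  have hprime : lam.Prime := by rcases hlam with rfl | rfl <;> norm_num
  have h0 : ((lam ^ n : ℕ) : Qb) ≠ 0 := Nat.cast_ne_zero.2 (pow_ne_zero n hprime.ne_zero)
  refine ⟨h0, ?_⟩
  have h1 : ((lam : Qb))⁻¹ ∈ A := s41ner_prime_inv_mem hq hprime (Ne.symm hne) hA
  rw [Nat.cast_pow, ← inv_pow]
  exact pow_mem h1 n

/-- the good reduction case -/
theorem s58l_good (hq : q.Prime) (hlam : lam = 3 ∨ lam = 5) (hne : lam ≠ q)
    (hgood : ¬ (q : ℤ) ∣ W.Δ) (A : ValuationSubring Qb) (hA : A.LiesOverPrime q)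
    (n : ℕ) (hn : 1 ≤ n) :
    ∃ P : ((W.map (Int.castRingHom ℚ))⁄Qb).Point, S58Exact lam n P ∧
      ∀ σ ∈ A.inertiaSubgroupIn ℚ, σ • P = P := by
  have hprime : lam.Prime := by rcases hlam with rfl | rfl <;> norm_num
  have hp2 : lam ≠ 2 := by rcases hlam with rfl | rfl <;> norm_num
  have hΔ : W.Δ ≠ 0 := fun h0 => hgood (h0 ▸ dvd_zero _)
  have hΔK := s58l_Δ_ne_zero W hΔ
  have hWL := s41ner_baseChange_eq W
  have hlamK : ((lam : ℕ) : Qb) ≠ 0 := Nat.cast_ne_zero.2 hprime.ne_zero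
  obtain ⟨P, hP0, -, hPe⟩ := s58_chain (W := (W.map (Int.castRingHom ℚ))⁄Qb) hΔK hlam
    (fun _ => True)
    (by
      obtain ⟨P, hP0, hpP⟩ := exists_ne_zero_nsmul_eq_zero
        (W := (W.map (Int.castRingHom ℚ))⁄Qb) hΔK hprime hp2 hlamK
      exact ⟨xc P, trivial, (eval_preΨ_eq_zero_iff hΔK hprime hp2 (xc P)).2 ⟨P, hP0, hpP, rfl⟩⟩)
    (by
      intro c _
      obtain ⟨x, hx⟩ := s58_exists_root_step ((W.map (Int.castRingHom ℚ))⁄Qb)
        (n := (lam : ℤ)) (by exact_mod_cast hprime.ne_zero) c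
      exact ⟨x, trivial, hx⟩)
    n hn
  refine ⟨P, hPe, fun σ hσ => ?_⟩
  cases P with
  | zero => exact absurd rfl hP0
  | some x y h =>
    obtain ⟨hn0, hninv⟩ := s58l_lam_facts hq hlam hne A hA n
    have hint : IsIntegralAt A ((W.map (Int.castRingHom ℚ))⁄Qb) := by
      rw [hWL]; exact s41ner_isIntegralAt A W
    have hΔA : ((W.map (Int.castRingHom ℚ))⁄Qb).Δ ∉ A.nonunits := by
      rw [hWL]; exact s41ner_Δ_not_mem hq hA hgood
    have hx := s41ner_x_mem_of_torsion hint hn0 hninv h hPe.1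
    have hns := main_not_both_partials_of_Δ A _ hint.1 hint.2.1 hΔA h.1 hx
    exact s58l_fixed _ A hint hn0 hninv h hPe.1 hns σ hσ

/-- the nodal case, node at `x = 0` -/
theorem s58l_nodal (hΔ : W.Δ ≠ 0) (hq : q.Prime) (hlam : lam = 3 ∨ lam = 5) (hne : lam ≠ q)
    (hb2 : ¬ (q : ℤ) ∣ W.b₂) (hb4 : (q : ℤ) ∣ W.b₄) (hb6 : (q : ℤ) ∣ W.b₆)
    (hb8 : (q : ℤ) ∣ W.b₈) (A : ValuationSubring Qb) (hA : A.LiesOverPrime q)
    (n : ℕ) (hn : 1 ≤ n) :
    ∃ P : ((W.map (Int.castRingHom ℚ))⁄Qb).Point, S58Exact lam n P ∧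
      ∀ σ ∈ A.inertiaSubgroupIn ℚ, σ • P = P := by
  have hΔK := s58l_Δ_ne_zero W hΔ
  have hWL := s41ner_baseChange_eq W
  obtain ⟨P, hP0, hgP, hPe⟩ := s58_chain (W := (W.map (Int.castRingHom ℚ))⁄Qb) hΔK hlam
    (fun x => x ∉ A.nonunits)
    (by
      obtain ⟨x, hx, e⟩ := s58l_base_root (L := Qb) A hq hA hlam hne hb2 hb4 hb6 hb8
      refine ⟨x, hx, ?_⟩
      rw [hWL]; exact e)
    (by
      intro c hc
      obtain ⟨x, hx, e⟩ := s58l_step_root (L := Qb) A hq hA hlam hne hb2 hb4 hb6 hb8 c hc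
      refine ⟨x, hx, ?_⟩
      rw [hWL]; exact e)
    n hn
  refine ⟨P, hPe, fun σ hσ => ?_⟩
  cases P with
  | zero => exact absurd rfl hP0
  | some x y h =>
    obtain ⟨hn0, hninv⟩ := s58l_lam_facts hq hlam hne A hA n
    have hint : IsIntegralAt A ((W.map (Int.castRingHom ℚ))⁄Qb) := by
      rw [hWL]; exact s41ner_isIntegralAt A W
    have hx := s41ner_x_mem_of_torsion hint hn0 hninv h hPe.1
    have hy := s41ner_y_mem_of_torsion hint hn0 hninv h hPe.1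
    have hxu : x ∉ A.nonunits := hgP
    have k2 : ((W.map (Int.castRingHom ℚ))⁄Qb).b₂ ∉ A.nonunits := by
      rw [hWL, WeierstrassCurve.map_b₂, eq_intCast, ValuationSubring.mem_nonunits_iff,
        (valuation_intCast_eq_one_iff A hq hA W.b₂).2 hb2]
      exact lt_irrefl _
    have k4 : ((W.map (Int.castRingHom ℚ))⁄Qb).b₄ ∈ A.nonunits := by
      rw [hWL, WeierstrassCurve.map_b₄, eq_intCast]
      exact s41ner_intCast_nonunits hA hb4
    have k6 : ((W.map (Int.castRingHom ℚ))⁄Qb).b₆ ∈ A.nonunits := by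
      rw [hWL, WeierstrassCurve.map_b₆, eq_intCast]
      exact s41ner_intCast_nonunits hA hb6
    have hns := s58l_ns_of_unit_x hint k2 k4 k6 h.1 hx hy hxu
    exact s58l_fixed _ A hint hn0 hninv h hPe.1 hns σ hσ

/-- **inertia-fixed points of exact order `lam ^ n`** on a semistable curve -/
theorem s58_local (hss : W.IsSemistableModel) (hΔ : W.Δ ≠ 0) (hq : q.Prime)
    (hlam : lam = 3 ∨ lam = 5) (hne : lam ≠ q) (A : ValuationSubring Qb)
    (hA : A.LiesOverPrime q) (n : ℕ) :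
    ∃ P : ((W.map (Int.castRingHom ℚ))⁄Qb).Point, S58Exact lam n P ∧
      ∀ σ ∈ A.inertiaSubgroupIn ℚ, σ • P = P := by
  rcases Nat.eq_zero_or_pos n with rfl | hn
  · refine ⟨0, ⟨by simp, fun m _ => by simp⟩, fun σ _ => rfl⟩
  by_cases hgood : (q : ℤ) ∣ W.Δ
  · -- multiplicative reduction
    have hc₄ : ¬ (q : ℤ) ∣ W.c₄ := hss q hq hgood
    obtain ⟨r, hb2, hb4, hb6, hb8⟩ := s58l_exists_translate W hq hgood hc₄
    have hΔ' : (s58lTr r • W).Δ ≠ 0 := by rw [s58lTr_Δ]; exact hΔ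
    obtain ⟨P', hP'e, hP'fix⟩ := s58l_nodal (s58lTr r • W) hΔ' hq hlam hne hb2 hb4 hb6 hb8 A hA n hn
    have h₀ : (s58lTr r • W).map (Int.castRingHom ℚ) =
        ((s58lTr r).map (Int.castRingHom ℚ)) • (W.map (Int.castRingHom ℚ)) :=
      (map_variableChange W (s58lTr r) (Int.castRingHom ℚ)).symm
    let e := vcPointBC ((s58lTr r).map (Int.castRingHom ℚ)) h₀ Qb
    refine ⟨e P', ⟨?_, fun m hm => hP'e.2 m ?_⟩, fun σ hσ => ?_⟩
    · rw [← map_nsmul, hP'e.1, map_zero]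
    · apply e.injective
      rw [map_zsmul, hm, map_zero]
    · have := vcPointBC_smul (S := ℚ) ((s58lTr r).map (Int.castRingHom ℚ)) h₀ σ P'
      rw [← this, hP'fix σ hσ]
  · exact s58l_good W hq hlam hne hgood A hA n hn

end final

end Fermat.Agent.S58
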