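import Mathlib
import Fermat.Prelude.Def_CuspForm_Newforms

set_option autoImplicit false

/-!
# S58, step (A): newform extraction

A normalised eigenform `f` of level `N > 0` has an associated newform (in the prelude's sense
`CuspForm.IsNewform`) `g` of a level `M ∣ N` with `a_ℓ(g) = a_ℓ(f)` for all primes `ℓ ∤ N`:
take `M` minimal among the divisors of `N` at which the good eigensystem of `f` occurs.
-/

namespace Fermat.Agent.S58x

open CongruenceSubgroup ModularFormClass CuspForm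

theorem s58nf_exists_newform {N : ℕ} (hN : 0 < N) (f : CuspForm (Gamma0 N) 2)
    (hf : f.IsNormalizedEigenform) :
    ∃ M : ℕ, M ∣ N ∧ 0 < M ∧ ∃ g : CuspForm (Gamma0 M) 2, g.IsNewform ∧
      ∀ ℓ : ℕ, ℓ.Prime → ¬ ℓ ∣ N → qCoeff ⇑g ℓ = qCoeff ⇑f ℓ := by
  classical
  have hex : ∃ M : ℕ, M ∣ N ∧ GoodEigensystemOccursAt f M :=
    ⟨N, dvd_rfl, GoodEigensystemOccursAt.refl hf⟩
  set M := Nat.find hex with hMdef
  obtain ⟨hMN, g, hg, hgf⟩ := Nat.find_spec hex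
  have hMpos : 0 < M := Nat.pos_of_dvd_of_pos hMN hN
  refine ⟨M, hMN, hMpos, g, ⟨hg, fun M' hM'M hne hocc => ?_⟩, hgf⟩
  obtain ⟨g', hg', hg'g⟩ := hocc
  have hlt : M' < M := lt_of_le_of_ne (Nat.le_of_dvd hMpos hM'M) hne
  refine Nat.find_min hex hlt ⟨dvd_trans hM'M hMN, g', hg', fun ℓ hℓ hℓN => ?_⟩
  rw [hg'g ℓ hℓ (fun h => hℓN (dvd_trans h hMN)), hgf ℓ hℓ hℓN]

end Fermat.Agent.S58x
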