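import Mathlib
import Fermat.Agent.S49.Arith
import Fermat.Prelude.Def_FLTPrelim_Modularity
import Fermat.Prelude.Def_ModularForm_HeckeOperatorForms
import Fermat.Prelude.Def_WeierstrassCurve_ConductorLevel

set_option autoImplicit false
set_option linter.unusedSectionVars false
set_option linter.unusedVariables false
set_option linter.style.haveILetI false

/-!
# S58, step (C): stabilisation of a normalised eigenform at a prime not dividing the level

`g` a normalised eigenform of level `M`, `ℓ ∤ M` prime, `β` a root of `X² - a_ℓ(g) X + ℓ`: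
`h = g - β·V_ℓ g` is a normalised eigenform of level `M ℓ` with `a_n(h) = a_n(g)` for `(n, ℓ) = 1`
(`V_ℓ g = ℓ⁻¹ (T_ℓ g - U_ℓ g)`, so no new analytic input is needed). Iterating, `g` gives a
normalised eigenform of every squarefree level `D` divisible by `M`.
-/

namespace Fermat.Agent.S58x

open CongruenceSubgroup ModularFormClass UpperHalfPlane Fermat.Agent.S49
open scoped MatrixGroups

/-! ### the arithmetic of the coefficients -/

/-- the `q`-coefficient conditions of `IsNormalizedEigenform`, for a sequence -/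
structure S58stSeq (M : ℕ) (a : ℕ → ℂ) : Prop where
  one : a 1 = 1
  mul : ∀ m n : ℕ, m.Coprime n → a (m * n) = a m * a n
  good : ∀ p r : ℕ, p.Prime → ¬ p ∣ M → a (p ^ (r + 2)) = a p * a (p ^ (r + 1)) - p * a (p ^ r)
  bad : ∀ p r : ℕ, p.Prime → p ∣ M → a (p ^ (r + 2)) = a p * a (p ^ (r + 1))

theorem s58st_seq_iff {N : ℕ} (f : CuspForm (Gamma0 N) 2) :
    f.IsNormalizedEigenform ↔ S58stSeq N (qCoeff ⇑f) :=
  ⟨fun h => ⟨h.qCoeff_one, h.qCoeff_mul_of_coprime, h.qCoeff_prime_pow_of_not_dvd,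
    h.qCoeff_prime_pow_of_dvd⟩, fun h => ⟨h.one, h.mul, h.good, h.bad⟩⟩

/-- the stabilised sequence -/
noncomputable def s58stB (a : ℕ → ℂ) (ℓ : ℕ) (β : ℂ) (n : ℕ) : ℂ :=
  a n - β * (if ℓ ∣ n then a (n / ℓ) else 0)

theorem s58stB_of_not_dvd (a : ℕ → ℂ) {ℓ : ℕ} (β : ℂ) {n : ℕ} (h : ¬ ℓ ∣ n) :
    s58stB a ℓ β n = a n := by
  rw [s58stB, if_neg h, mul_zero, sub_zero]

theorem s58stB_of_dvd (a : ℕ → ℂ) {ℓ : ℕ} (β : ℂ) {n : ℕ} (h : ℓ ∣ n) :
    s58stB a ℓ β n = a n - β * a (n / ℓ) := by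
  rw [s58stB, if_pos h]

theorem s58st_seq_stab {M : ℕ} {a : ℕ → ℂ} (ha : S58stSeq M a) {ℓ : ℕ} (hℓ : ℓ.Prime)
    (hℓM : ¬ ℓ ∣ M) {β : ℂ} (hβ : β ^ 2 - a ℓ * β + ℓ = 0) :
    S58stSeq (M * ℓ) (s58stB a ℓ β) := by
  have hpow : ∀ {p : ℕ}, p.Prime → p ≠ ℓ → ∀ s : ℕ, ¬ ℓ ∣ p ^ s := by
    intro p hp hpl s hd
    exact hpl ((Nat.prime_dvd_prime_iff_eq hℓ hp).mp (hℓ.dvd_of_dvd_pow hd)).symm
  have hℓpow : ∀ s : ℕ, s58stB a ℓ β (ℓ ^ (s + 1)) = a (ℓ ^ (s + 1)) - β * a (ℓ ^ s) := by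
    intro s
    rw [s58stB_of_dvd a β (dvd_pow_self ℓ (Nat.succ_ne_zero s)), pow_succ,
      Nat.mul_div_cancel _ hℓ.pos]
  refine ⟨?_, ?_, ?_, ?_⟩
  · rw [s58stB_of_not_dvd a β (by rw [Nat.dvd_one]; exact hℓ.ne_one), ha.one]
  · intro m n hmn
    by_cases hm : ℓ ∣ m
    · have hn : ¬ ℓ ∣ n := fun hn => hℓ.ne_one (Nat.eq_one_of_dvd_coprimes hmn hm hn)
      obtain ⟨m', rfl⟩ := hm
      have hm'n : m'.Coprime n := Nat.Coprime.coprime_dvd_left (Dvd.intro_left ℓ rfl) hmn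
      rw [s58stB_of_dvd a β (Dvd.dvd.mul_right (Dvd.intro _ rfl) n),
        s58stB_of_dvd a β (Dvd.intro _ rfl), s58stB_of_not_dvd a β hn, ha.mul _ _ hmn,
        mul_assoc, Nat.mul_div_cancel_left _ hℓ.pos, Nat.mul_div_cancel_left _ hℓ.pos,
        ha.mul _ _ hm'n]
      ring
    · by_cases hn : ℓ ∣ n
      · obtain ⟨n', rfl⟩ := hn
        have hmn' : m.Coprime n' := Nat.Coprime.coprime_dvd_right (Dvd.intro_left ℓ rfl) hmn
        have e : m * (ℓ * n') = ℓ * (m * n') := by ring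
        rw [s58stB_of_dvd a β (Dvd.dvd.mul_left (Dvd.intro _ rfl) m),
          s58stB_of_dvd a β (Dvd.intro _ rfl), s58stB_of_not_dvd a β hm, ha.mul _ _ hmn,
          e, Nat.mul_div_cancel_left _ hℓ.pos, Nat.mul_div_cancel_left _ hℓ.pos,
          ha.mul _ _ hmn']
        ring
      · have hmn' : ¬ ℓ ∣ m * n := fun h => (hℓ.dvd_mul.mp h).elim hm hn
        rw [s58stB_of_not_dvd a β hmn', s58stB_of_not_dvd a β hm, s58stB_of_not_dvd a β hn,
          ha.mul _ _ hmn]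
  · intro p r hp hpM
    have hpM' : ¬ p ∣ M := fun h => hpM (Dvd.dvd.mul_right h ℓ)
    have hpl : p ≠ ℓ := fun h => hpM (h ▸ Dvd.intro_left M rfl)
    rw [s58stB_of_not_dvd a β (hpow hp hpl _), s58stB_of_not_dvd a β (hpow hp hpl _),
      s58stB_of_not_dvd a β (hpow hp hpl _),
      s58stB_of_not_dvd a β (by simpa using hpow hp hpl 1), ha.good p r hp hpM']
  · intro p r hp hpM
    by_cases hpl : p = ℓ
    · subst hpl
      have h1 : s58stB a p β p = a p - β := by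
        have := hℓpow 0
        rwa [zero_add, pow_one, pow_zero, ha.one, mul_one] at this
      rw [show r + 2 = (r + 1) + 1 from rfl, hℓpow (r + 1), hℓpow r, h1,
        show r + 1 + 1 = r + 2 from rfl, ha.good p r hp hℓM]
      linear_combination (-a (p ^ r)) * hβ
    · have hpM' : p ∣ M := by
        rcases (Nat.Prime.dvd_mul hp).mp hpM with h | h
        · exact h
        · exact absurd ((Nat.prime_dvd_prime_iff_eq hp hℓ).mp h) hpl
      rw [s58stB_of_not_dvd a β (hpow hp hpl _), s58stB_of_not_dvd a β (hpow hp hpl _),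
        s58stB_of_not_dvd a β (by simpa using hpow hp hpl 1), ha.bad p r hp hpM']


/-! ### restriction to a smaller `Γ₀` -/

theorem s58st_le {M K : ℕ} (h : M ∣ K) :
    ((Gamma0 K : Subgroup SL(2, ℤ)).map (Matrix.SpecialLinearGroup.mapGL ℝ) :
      Subgroup (GL (Fin 2) ℝ)) ≤
      ((Gamma0 M : Subgroup SL(2, ℤ)).map (Matrix.SpecialLinearGroup.mapGL ℝ) :
      Subgroup (GL (Fin 2) ℝ)) := by
  rintro _ ⟨γ, hγ, rfl⟩
  refine ⟨γ, ?_, rfl⟩
  rw [SetLike.mem_coe, Gamma0_mem, ZMod.intCast_zmod_eq_zero_iff_dvd] at hγ ⊢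
  exact dvd_trans (Int.natCast_dvd_natCast.mpr h) hγ

/-- restriction of a cusp form of level `M` to level `K`, `M ∣ K` -/
def s58stRes {M K : ℕ} (h : M ∣ K) {k : ℤ} (f : CuspForm (Gamma0 M) k) :
    CuspForm (Gamma0 K) k where
  toFun := f
  slash_action_eq' := fun γ hγ => f.slash_action_eq' γ (s58st_le h hγ)
  holo' := f.holo'
  zero_at_cusps' := fun hc => f.zero_at_cusps' (hc.mono (s58st_le h))

theorem s58stRes_coe {M K : ℕ} (h : M ∣ K) {k : ℤ} (f : CuspForm (Gamma0 M) k) :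
    ⇑(s58stRes h f) = ⇑f := rfl

/-! ### the stabilised form -/

theorem s58st_exists_root (a : ℂ) (ℓ : ℕ) : ∃ β : ℂ, β ^ 2 - a * β + ℓ = 0 := by
  obtain ⟨s, hs⟩ := IsAlgClosed.exists_eq_mul_self (discrim (1 : ℂ) (-a) ℓ)
  obtain ⟨β, hβ⟩ := exists_quadratic_eq_zero (a := (1 : ℂ)) (b := -a) (c := (ℓ : ℂ))
    one_ne_zero ⟨s, hs⟩
  exact ⟨β, by linear_combination hβ⟩

/-- **(ST1)** stabilisation at a prime `ℓ ∤ M` -/
theorem s58st_stabilise {M : ℕ} [NeZero M] (g : CuspForm (Gamma0 M) 2)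
    (hg : g.IsNormalizedEigenform) {ℓ : ℕ} (hℓ : ℓ.Prime) (hℓM : ¬ ℓ ∣ M) :
    ∃ h : CuspForm (Gamma0 (M * ℓ)) 2, h.IsNormalizedEigenform ∧
      ∀ n : ℕ, n.Coprime ℓ → qCoeff ⇑h n = qCoeff ⇑g n := by
  haveI : NeZero (M * ℓ) := ⟨mul_ne_zero (NeZero.ne M) hℓ.ne_zero⟩
  obtain ⟨β, hβ⟩ := s58st_exists_root (qCoeff ⇑g ℓ) ℓ
  have hdM : M ∣ M * ℓ := Dvd.intro _ rfl
  have hdℓ : ℓ ∣ M * ℓ := Dvd.intro_left M rfl
  set G : CuspForm (Gamma0 (M * ℓ)) 2 := s58stRes hdM g with hG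
  set TG : CuspForm (Gamma0 (M * ℓ)) 2 := s58stRes hdM (CuspForm.heckeTLin 2 hℓ hℓM g) with hTG
  set UG : CuspForm (Gamma0 (M * ℓ)) 2 := CuspForm.heckeULin 2 hdℓ G with hUG
  set h : CuspForm (Gamma0 (M * ℓ)) 2 := G - (β / ℓ) • (TG - UG) with hh
  have hℓ0 : (ℓ : ℂ) ≠ 0 := Nat.cast_ne_zero.mpr hℓ.ne_zero
  have hcoeff : ∀ n : ℕ, qCoeff ⇑h n = s58stB (qCoeff ⇑g) ℓ β n := by
    intro n
    have h1 : qc (M * ℓ) 2 h n =
        qc (M * ℓ) 2 G n - (β / ℓ) * (qc (M * ℓ) 2 TG n - qc (M * ℓ) 2 UG n) := by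
      rw [hh, map_sub, map_smul, map_sub]
      simp only [Pi.sub_apply, Pi.smul_apply, smul_eq_mul]
    rw [qc_apply, qc_apply, qc_apply, qc_apply] at h1
    rw [h1]
    have h2 : qCoeff ⇑TG n = ModularForm.coeffHeckeT 2 ℓ (qCoeff ⇑g) n := by
      rw [hTG, s58stRes_coe]
      exact qc_heckeTLin hℓ hℓM g n
    have h3 : qCoeff ⇑UG n = ModularForm.coeffHeckeU ℓ (qCoeff ⇑g) n := by
      rw [hUG, qc_heckeULin hℓ hdℓ G n, hG, s58stRes_coe]
    have h4 : qCoeff ⇑G n = qCoeff ⇑g n := by rw [hG, s58stRes_coe]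
    rw [h2, h3, h4, ModularForm.coeffHeckeT_apply, ModularForm.coeffHeckeU_apply, s58stB]
    have hpow : ((ℓ : ℂ)) ^ ((2 : ℤ) - 1) = (ℓ : ℂ) := by norm_num
    rw [hpow]
    split_ifs
    · field_simp
      ring
    · ring
  have hseq : S58stSeq (M * ℓ) (qCoeff ⇑h) := by
    have := s58st_seq_stab ((s58st_seq_iff g).mp hg) hℓ hℓM hβ
    have e : qCoeff ⇑h = s58stB (qCoeff ⇑g) ℓ β := funext hcoeff
    rw [e]
    exact this
  refine ⟨h, (s58st_seq_iff h).mpr hseq, fun n hn => ?_⟩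
  rw [hcoeff n, s58stB_of_not_dvd]
  intro hd
  have : ℓ ∣ Nat.gcd n ℓ := Nat.dvd_gcd hd dvd_rfl
  rw [hn] at this
  exact hℓ.ne_one (Nat.dvd_one.mp this)


/-- iteration of `s58st_stabilise` over the primes of `k` -/
theorem s58st_raise_aux (k : ℕ) : ∀ (M D : ℕ) [NeZero M] (g : CuspForm (Gamma0 M) 2),
    g.IsNormalizedEigenform → D = M * k → Squarefree D →
    ∃ h : CuspForm (Gamma0 D) 2, h.IsNormalizedEigenform ∧
      ∀ n : ℕ, n.Coprime k → qCoeff ⇑h n = qCoeff ⇑g n := by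
  induction k using Nat.strong_induction_on with
  | _ k ih =>
    intro M D _ g hg hD hsq
    rcases Nat.eq_or_lt_of_le (Nat.zero_le k) with h0 | hpos
    · -- `k = 0` is impossible
      exfalso
      rw [← h0, mul_zero] at hD
      rw [hD] at hsq
      exact not_squarefree_zero hsq
    rcases Nat.eq_or_lt_of_le (Nat.succ_le_of_lt hpos) with h1 | hgt
    · -- `k = 1`
      have hDM : D = M := by rw [hD, ← h1]; exact Nat.mul_one M
      subst hDM
      exact ⟨g, hg, fun n _ => rfl⟩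
    · -- `k > 1`
      have hk1 : k ≠ 1 := by omega
      set ℓ := k.minFac with hℓdef
      have hℓ : ℓ.Prime := Nat.minFac_prime hk1
      obtain ⟨k', hk'⟩ : ℓ ∣ k := Nat.minFac_dvd k
      have hk'pos : 0 < k' := by
        rcases Nat.eq_zero_or_pos k' with h | h
        · rw [h, mul_zero] at hk'; omega
        · exact h
      have hk'lt : k' < k := by
        rw [hk']
        have := hℓ.two_le
        nlinarith
      have hD' : D = M * ℓ * k' := by rw [hD, hk']; ring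
      have hℓM : ¬ ℓ ∣ M := by
        intro hd
        obtain ⟨M', rfl⟩ := hd
        have : ℓ * ℓ ∣ D := ⟨M' * k', by rw [hD']; ring⟩
        exact hℓ.not_isUnit (hsq ℓ this)
      obtain ⟨g', hg', hgg'⟩ := s58st_stabilise g hg hℓ hℓM
      haveI : NeZero (M * ℓ) := ⟨mul_ne_zero (NeZero.ne M) hℓ.ne_zero⟩
      obtain ⟨h, hh, hhg⟩ := ih k' hk'lt (M * ℓ) D g' hg' hD' hsq
      refine ⟨h, hh, fun n hn => ?_⟩
      rw [hk'] at hn
      rw [hhg n (Nat.Coprime.coprime_mul_left_right hn), hgg' n (Nat.Coprime.coprime_mul_right_right hn)]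

/-- **(ST2)** a normalised eigenform of level `M` gives one of every squarefree level `D`
divisible by `M`, with the same coefficients prime to `D / M`. -/
theorem s58st_raise {M D : ℕ} [NeZero M] (hMD : M ∣ D) (hD : Squarefree D)
    (g : CuspForm (Gamma0 M) 2) (hg : g.IsNormalizedEigenform) :
    ∃ h : CuspForm (Gamma0 D) 2, h.IsNormalizedEigenform ∧
      ∀ n : ℕ, n.Coprime (D / M) → qCoeff ⇑h n = qCoeff ⇑g n := by
  obtain ⟨k, hk⟩ := hMD
  have hM : 0 < M := Nat.pos_of_ne_zero (NeZero.ne M)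
  have e : D / M = k := by rw [hk, Nat.mul_div_cancel_left _ hM]
  rw [e]
  exact s58st_raise_aux k M D g hg hk hD

/-- in particular for all primes not dividing `D` -/
theorem s58st_raise_prime {M D : ℕ} [NeZero M] (hMD : M ∣ D) (hD : Squarefree D)
    (g : CuspForm (Gamma0 M) 2) (hg : g.IsNormalizedEigenform) :
    ∃ h : CuspForm (Gamma0 D) 2, h.IsNormalizedEigenform ∧
      ∀ r : ℕ, r.Prime → ¬ r ∣ D / M → qCoeff ⇑h r = qCoeff ⇑g r := by
  obtain ⟨h, hh, hhg⟩ := s58st_raise hMD hD g hg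
  exact ⟨h, hh, fun r hr hrd => hhg r ((Nat.Prime.coprime_iff_not_dvd hr).mpr hrd)⟩


/-- the last step of S58: a normalised eigenform `g` of a level `M` dividing the conductor level
with `a_r(g) = a_r(W)` at the good primes `r ∤ D / M` makes `W` modular of its conductor level. -/
theorem s58st_modular_conductorLevel (W : WeierstrassCurve ℤ) {M : ℕ} [NeZero M]
    (hM : M ∣ W.conductorLevel) (g : CuspForm (Gamma0 M) 2) (hg : g.IsNormalizedEigenform)
    (hcoef : ∀ r : ℕ, r.Prime → W.IsGoodPrimeFor r → ¬ r ∣ W.conductorLevel →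
      qCoeff ⇑g r = (W.apOfModel r : ℂ)) :
    W.IsModularModelOfLevel W.conductorLevel := by
  obtain ⟨h, hh, hhg⟩ := s58st_raise_prime hM W.squarefree_conductorLevel g hg
  refine ⟨h, hh, fun p hp hgood hpD => ?_⟩
  rw [hhg p hp (fun hd => hpD (dvd_trans hd (Nat.div_dvd_of_dvd hM))), hcoef p hp hgood hpD]

end Fermat.Agent.S58x
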