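import Fermat.Agent.S58.Transport
import Fermat.Agent.S58.Loc
import Fermat.Agent.S58.Stab
import Fermat.Agent.S58.NewExtract
import Fermat.Agent.WE.Lift
import Fermat.Agent.S13.TorsionField
import Fermat.Agent.S54.ExistsFrobenius
import Fermat.Prelude.Def_CuspForm_HeckeGaloisRepDatum
import Fermat.Prelude.Def_CuspForm_Newforms
import Fermat.Prelude.Def_GaloisRep_LocalConditions
import Fermat.Prelude.Def_WeierstrassCurve_ConductorLevel
import Fermat.Prelude.Def_FLTPrelim_ModularRep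

/-!
# S58, file Main: conductor–level matching from the `λ`-adic representations of newforms

`s58_main` : the frozen statement S58 from
* `S58In`  : existence of the inputs `(chig, O', iota)` of S35/S36 for a normalised eigenform,
* `S58H35` : the statement S35,
* `S58H36` : the statement S36 WITHOUT its residual hypothesis.
-/

set_option autoImplicit false
set_option linter.unusedSectionVars false
set_option linter.unusedVariables false
set_option linter.style.haveILetI false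

noncomputable section

namespace Fermat.Agent.S58

open IsLocalRing Polynomial Fermat.Agent.G WeierstrassCurve WeierstrassCurve.Affine

local notation "Qb" => AlgebraicClosure ℚ
local notation "GQ" => (AlgebraicClosure ℚ ≃ₐ[ℚ] AlgebraicClosure ℚ)

/-! ### the torsion of `W(ℚ̄)` -/

section group

theorem s58m_finite_pow_tors {G : Type*} [AddCommGroup G] (p : ℕ)
    (h1 : {x : G | p • x = 0}.Finite) (k : ℕ) : {x : G | p ^ k • x = 0}.Finite := by
  induction k with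
  | zero =>
    refine (Set.finite_singleton (0 : G)).subset ?_
    intro x hx
    have : x = 0 := by simpa using hx
    exact this
  | succ k ih =>
    have hfib : ∀ Q : G, {P : G | p • P = Q}.Finite := by
      intro Q
      by_cases hne : ∃ P₀, p • P₀ = Q
      · obtain ⟨P₀, hP₀⟩ := hne
        refine (h1.image (fun T => P₀ + T)).subset ?_
        intro P hP
        refine ⟨P - P₀, ?_, by simp⟩
        show p • (P - P₀) = 0
        rw [smul_sub, hP₀]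
        exact sub_eq_zero.2 hP
      · refine Set.finite_empty.subset ?_
        intro P hP
        exact (hne ⟨P, hP⟩).elim
    refine (ih.biUnion (fun Q _ => hfib Q)).subset ?_
    intro P hP
    simp only [Set.mem_iUnion, Set.mem_setOf_eq]
    refine ⟨p • P, ?_, rfl⟩
    rw [← mul_smul, ← pow_succ]
    exact hP

end group

section wside

variable (W : WeierstrassCurve ℤ)

/-- the group `W(ℚ̄)` -/
abbrev s58Pt : Type := ((W.map (Int.castRingHom ℚ))⁄Qb).Point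

theorem s58m_finite_tors (hΔ : W.Δ ≠ 0) {lam : ℕ} (hlam : lam = 3 ∨ lam = 5) (n : ℕ) :
    Finite (Submodule.torsionBy ℤ (s58Pt W) ((lam ^ n : ℕ) : ℤ)) := by
  have hprime : lam.Prime := by rcases hlam with rfl | rfl <;> norm_num
  have hp2 : lam ≠ 2 := by rcases hlam with rfl | rfl <;> norm_num
  have hΔK := s58l_Δ_ne_zero W hΔ
  have hlamK : ((lam : ℕ) : Qb) ≠ 0 := Nat.cast_ne_zero.2 hprime.ne_zero
  have h1 : {x : s58Pt W | lam • x = 0}.Finite := by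
    have hf := Fermat.Agent.S13.finite_torsion_prime
      (W := (W.map (Int.castRingHom ℚ))⁄Qb) hΔK hprime hp2 hlamK
    exact Set.finite_coe_iff.mp hf
  have h2 := s58m_finite_pow_tors lam h1 n
  refine (h2.subset ?_).to_subtype
  intro x hx
  have := (Submodule.mem_torsionBy_iff _ _).1 hx
  rw [natCast_zsmul] at this
  exact this

/-- finite level fixing the `lam ^ n`-torsion -/
theorem s58m_fix (hΔ : W.Δ ≠ 0) {lam : ℕ} (hlam : lam = 3 ∨ lam = 5) (n : ℕ) :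
    ∃ Lk : IntermediateField ℚ Qb, FiniteDimensional ℚ Lk ∧
      ∀ σ : GQ, (∀ x ∈ Lk, σ x = x) → ∀ x ∈ s58Tors (s58Pt W) (lam ^ n), σ • x = x := by
  haveI := s58m_finite_tors W hΔ hlam n
  obtain ⟨F, hF, h⟩ := Fermat.Agent.S13.exists_finite_fixing_torsion
    (W.map (Int.castRingHom ℚ)) (lam ^ n)
  refine ⟨F, hF, fun σ hσ x hx => ?_⟩
  have hσ' : σ ∈ F.fixingSubgroup := by
    rw [IntermediateField.mem_fixingSubgroup_iff]
    exact hσ
  have hx' : x ∈ Submodule.torsionBy ℤ (s58Pt W) ((lam ^ n : ℕ) : ℤ) := by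
    rw [Submodule.mem_torsionBy_iff, natCast_zsmul]
    exact hx
  exact congrArg Subtype.val (h σ hσ' ⟨x, hx'⟩)

end wside

/-! ### representations with the Frobenius traces of `W` -/

section rep

variable (W : WeierstrassCurve ℤ) (lam : ℕ) [Fact lam.Prime] (B : Finset ℕ)
  {O : Type} [CommRing O] [IsDomain O] [IsDiscreteValuationRing O] (ρ : GaloisRepAdic O)

/-- `ρ` has the Frobenius traces of `W` away from `B` -/
structure S58Rep : Prop where
  lamO : (lam : O) ∈ maximalIdeal O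
  lamB : lam ∈ B
  lam35 : lam = 3 ∨ lam = 5
  good : ∀ ℓ : ℕ, ℓ.Prime → ℓ ∉ B → W.IsGoodPrimeFor ℓ
  frob : ∀ ℓ : ℕ, ℓ.Prime → ℓ ∉ B → ∀ A : ValuationSubring Qb, A.LiesOverPrime ℓ →
      ∀ σ : GQ, A.IsFrobeniusAt σ ℓ →
        LinearMap.charpoly (ρ.ρ σ) = X ^ 2 - C ((W.apOfModel ℓ : ℤ) : O) * X + C ((ℓ : ℕ) : O)

variable {W lam B ρ}

theorem S58Rep.hΛ (h : S58Rep W lam B ρ) (n : ℕ) (ℓ : ℕ) (hℓ : ℓ.Prime) (hℓB : ℓ ∉ B)
    (A : ValuationSubring Qb) (hA : A.LiesOverPrime ℓ) (σ : GQ) (hσ : A.IsFrobeniusAt σ ℓ)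
    (x : s58Pt W) (hx : x ∈ s58Tors (s58Pt W) (lam ^ n)) :
    σ • σ • x - W.apOfModel ℓ • σ • x + (ℓ : ℤ) • x = 0 := by
  have hlam : lam.Prime := Fact.out
  have hne : ℓ ≠ lam := fun e => hℓB (e ▸ h.lamB)
  have hnd : ¬ ℓ ∣ lam ^ n := fun hd =>
    hne ((Nat.prime_dvd_prime_iff_eq hℓ hlam).1 (hℓ.dvd_of_dvd_pow hd))
  exact Fermat.Agent.WE.we_lift_point W hℓ (h.good ℓ hℓ hℓB) A hA σ hσ hnd x hx

/-- the trace of a Frobenius element at a good prime `r ≠ lam` (in `B` or not) is `a_r(W)` -/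
theorem S58Rep.trace_frob (h : S58Rep W lam B ρ) (hss : W.IsSemistableModel) (hΔ : W.Δ ≠ 0)
    {r : ℕ} (hr : r.Prime) (hgood : W.IsGoodPrimeFor r) (hrlam : r ≠ lam)
    (A : ValuationSubring Qb) (hA : A.LiesOverPrime r) (σ : GQ) (hσ : A.IsFrobeniusAt σ r) :
    LinearMap.trace O ρ.V (ρ.ρ σ) = ((W.apOfModel r : ℤ) : O) ∧
      LinearMap.det (ρ.ρ σ) = ((r : ℕ) : O) := by
  refine s58_trace_eq_of_rel (Λ := s58Pt W) lam ρ B (fun ℓ => W.apOfModel ℓ) h.lamO h.lamB h.frob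
    (fun n => s58m_fix W hΔ h.lam35 n) (fun n ℓ hℓ hℓB A hA σ hσ x hx => h.hΛ n ℓ hℓ hℓB A hA σ hσ x hx)
    ?_ σ (W.apOfModel r) r ?_ ?_
  · intro n
    obtain ⟨P, hP, -⟩ := s58_local W hss hΔ hr h.lam35 (Ne.symm hrlam) A hA n
    exact ⟨P, hP.1, hP.2⟩
  · intro n ζ hζ
    exact (gad_frob_root lam hr hrlam A hA n ζ hζ).1 σ hσ
  · intro n x hx
    have hlam : lam.Prime := Fact.out
    have hnd : ¬ r ∣ lam ^ n := fun hd =>
      hrlam ((Nat.prime_dvd_prime_iff_eq hr hlam).1 (hr.dvd_of_dvd_pow hd))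
    exact Fermat.Agent.WE.we_lift_point W hr hgood A hA σ hσ hnd x hx

/-- inertia at every prime `q ≠ lam` acts unipotently -/
theorem S58Rep.unipotent (h : S58Rep W lam B ρ) (hss : W.IsSemistableModel) (hΔ : W.Δ ≠ 0)
    {q : ℕ} (hq : q.Prime) (hqlam : q ≠ lam) : ρ.IsUnipotentOnInertiaAt q := by
  intro P hP σ hσ
  refine s58_charpoly_of_fixed (Λ := s58Pt W) lam ρ B (fun ℓ => W.apOfModel ℓ) h.lamO h.lamB
    h.frob (fun n => s58m_fix W hΔ h.lam35 n)
    (fun n ℓ hℓ hℓB A hA σ hσ x hx => h.hΛ n ℓ hℓ hℓB A hA σ hσ x hx) σ ?_ ?_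
  · intro n ζ hζ
    exact (gad_frob_root lam hq hqlam P hP n ζ hζ).2 σ hσ
  · intro n
    obtain ⟨x, hx, hfix⟩ := s58_local W hss hΔ hq h.lam35 (Ne.symm hqlam) P hP n
    exact ⟨x, hx.1, hx.2, hfix σ hσ⟩

end rep

/-! ### the three inputs, as hypotheses -/

open CongruenceSubgroup ModularFormClass

/-- existence of the inputs `(chig, O', iota)` of S35/S36 -/
def S58In : Prop :=
  ∀ {M : ℕ} [NeZero M] {g : CuspForm (Gamma0 M) 2} (_ : g.IsNormalizedEigenform)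
    (lam : ℕ) [Fact lam.Prime] (S : Finset ℕ),
    ∃ chig : CuspForm.heckeAlgebra M 2 (↑S : Set ℕ) →+* ℂ,
      (∀ (ℓ : ℕ) (hℓ : ℓ.Prime) (hℓM : ¬ ℓ ∣ M) (hℓS : ℓ ∉ (↑S : Set ℕ)),
        chig (CuspForm.heckeAlgebra.T hℓ hℓM hℓS) = qCoeff g ℓ) ∧
      ∃ (O' : Type) (_ : CommRing O') (_ : IsDomain O') (_ : IsDiscreteValuationRing O')
        (_ : IsAdicComplete (maximalIdeal O') O') (_ : Finite (ResidueField O'))
        (_ : CharZero O'), (lam : O') ∈ maximalIdeal O' ∧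
          ∃ iota : chig.range →+* O', Function.Injective iota

/-- the statement S35 -/
def S58H35 : Prop :=
  ∀ {M : ℕ} [NeZero M] {g : CuspForm (Gamma0 M) 2} (_ : g.IsNewform)
    (lam : ℕ) [Fact lam.Prime] (S : Finset ℕ)
    (O' : Type) [CommRing O'] [IsDomain O'] [IsDiscreteValuationRing O']
    [IsAdicComplete (maximalIdeal O') O'] [Finite (ResidueField O')]
    [CharZero O'] (_ : (lam : O') ∈ maximalIdeal O')
    (chig : CuspForm.heckeAlgebra M 2 (↑S : Set ℕ) →+* ℂ)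
    (_ : ∀ (ℓ : ℕ) (hℓ : ℓ.Prime) (hℓM : ¬ ℓ ∣ M) (hℓS : ℓ ∉ (↑S : Set ℕ)),
      chig (CuspForm.heckeAlgebra.T hℓ hℓM hℓS) = qCoeff g ℓ)
    (iota : chig.range →+* O')
    (_ : lam ∈ S) (_ : ∀ q : ℕ, q.Prime → q ∣ M → q ∈ S),
    ∃ (O'' : Type) (_ : CommRing O'') (_ : IsDomain O'') (_ : IsDiscreteValuationRing O'')
      (_ : IsAdicComplete (maximalIdeal O'') O'') (_ : Finite (ResidueField O''))
      (_ : CharZero O'') (_ : Algebra O' O'') (_ : Module.Finite O' O'')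
      (_ : IsLocalHom (algebraMap O' O'')),
      Function.Injective (algebraMap O' O'') ∧
      ∃ ρ : GaloisRepAdic O'',
        (∀ (ℓ : ℕ) (hℓ : ℓ.Prime) (hℓM : ¬ ℓ ∣ M) (hℓS : ℓ ∉ (↑S : Set ℕ)),
          ∀ A : ValuationSubring Qb, A.LiesOverPrime ℓ →
            ∀ σ : GQ, A.IsFrobeniusAt σ ℓ →
              LinearMap.charpoly (ρ.ρ σ) =
                X ^ 2 - C (algebraMap O' O'' ((iota.comp chig.rangeRestrict)
                  (CuspForm.heckeAlgebra.T hℓ hℓM hℓS))) * X + C ((ℓ : O''))) ∧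
        (∀ q : ℕ, q.Prime → q ≠ lam → q ∣ M → ¬ q ^ 2 ∣ M →
          ∀ A : ValuationSubring Qb, A.LiesOverPrime q →
            ∀ σ : GQ, A.IsFrobeniusAt σ q →
              LinearMap.charpoly (ρ.ρ σ) = X ^ 2 - C ((q : O'') + 1) * X + C ((q : O'')) ∨
              LinearMap.charpoly (ρ.ρ σ) = X ^ 2 + C ((q : O'') + 1) * X + C ((q : O'')))

/-- the statement S36 without its residual hypothesis -/
def S58H36 : Prop :=
  ∀ {M : ℕ} [NeZero M] {g : CuspForm (Gamma0 M) 2} (_ : g.IsNewform)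
    (lam : ℕ) [Fact lam.Prime] (S : Finset ℕ)
    (O' : Type) [CommRing O'] [IsDomain O'] [IsDiscreteValuationRing O']
    [IsAdicComplete (maximalIdeal O') O'] [Finite (ResidueField O')]
    [CharZero O'] (_ : (lam : O') ∈ maximalIdeal O') (_ : lam ≠ 2)
    (chig : CuspForm.heckeAlgebra M 2 (↑S : Set ℕ) →+* ℂ)
    (_ : ∀ (ℓ : ℕ) (hℓ : ℓ.Prime) (hℓM : ¬ ℓ ∣ M) (hℓS : ℓ ∉ (↑S : Set ℕ)),
      chig (CuspForm.heckeAlgebra.T hℓ hℓM hℓS) = qCoeff g ℓ)
    (iota : chig.range →+* O')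
    (_ : lam ∈ S) (_ : ∀ q : ℕ, q.Prime → q ∣ M → q ∈ S),
    ∃ (O'' : Type) (_ : CommRing O'') (_ : IsDomain O'') (_ : IsDiscreteValuationRing O'')
      (_ : IsAdicComplete (maximalIdeal O'') O'') (_ : Finite (ResidueField O''))
      (_ : CharZero O'') (_ : Algebra O' O'') (_ : Module.Finite O' O'')
      (_ : IsLocalHom (algebraMap O' O'')),
      Function.Injective (algebraMap O' O'') ∧
      ∃ ρ : GaloisRepAdic O'',
        (∀ (ℓ : ℕ) (hℓ : ℓ.Prime) (hℓM : ¬ ℓ ∣ M) (hℓS : ℓ ∉ (↑S : Set ℕ)),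
          ∀ A : ValuationSubring Qb, A.LiesOverPrime ℓ →
            ∀ σ : GQ, A.IsFrobeniusAt σ ℓ →
              LinearMap.charpoly (ρ.ρ σ) =
                X ^ 2 - C (algebraMap O' O'' ((iota.comp chig.rangeRestrict)
                  (CuspForm.heckeAlgebra.T hℓ hℓM hℓS))) * X + C ((ℓ : O''))) ∧
        (∀ q : ℕ, q.Prime → q ≠ lam → M.factorization q = 2 → ¬ ρ.IsUnipotentOnInertiaAt q)

theorem s58m_exists_lam (q : ℕ) : ∃ lam : ℕ, (lam = 3 ∨ lam = 5) ∧ lam ≠ q ∧ lam ≠ 2 := by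
  by_cases h : q = 3
  · exact ⟨5, Or.inr rfl, by omega, by norm_num⟩
  · exact ⟨3, Or.inl rfl, fun e => h e.symm, by norm_num⟩

section output

variable (W : WeierstrassCurve ℤ) {N : ℕ} (hN0 : N ≠ 0)
  (hbad : ∀ ℓ : ℕ, ℓ.Prime → (ℓ : ℤ) ∣ W.Δ → ℓ ∣ N)
  {M : ℕ} [NeZero M] (hMN : M ∣ N) {g : CuspForm (Gamma0 M) 2}
  (hgW : ∀ ℓ : ℕ, ℓ.Prime → ¬ ℓ ∣ N → qCoeff g ℓ = (W.apOfModel ℓ : ℂ))
  (lam : ℕ) [Fact lam.Prime] (hlam35 : lam = 3 ∨ lam = 5) (S : Finset ℕ) (hlamS : lam ∈ S)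
  {O' : Type} [CommRing O'] [IsLocalRing O'] (hlamO' : (lam : O') ∈ maximalIdeal O')
  (chig : CuspForm.heckeAlgebra M 2 (↑S : Set ℕ) →+* ℂ)
  (hchig : ∀ (ℓ : ℕ) (hℓ : ℓ.Prime) (hℓM : ¬ ℓ ∣ M) (hℓS : ℓ ∉ (↑S : Set ℕ)),
    chig (CuspForm.heckeAlgebra.T hℓ hℓM hℓS) = qCoeff g ℓ)
  (iota : chig.range →+* O')
  {O'' : Type} [CommRing O''] [IsDomain O''] [IsDiscreteValuationRing O''] [Algebra O' O'']
  [IsLocalHom (algebraMap O' O'')] (ρ : GaloisRepAdic O'')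
  (hfrob : ∀ (ℓ : ℕ) (hℓ : ℓ.Prime) (hℓM : ¬ ℓ ∣ M) (hℓS : ℓ ∉ (↑S : Set ℕ)),
    ∀ A : ValuationSubring Qb, A.LiesOverPrime ℓ →
      ∀ σ : GQ, A.IsFrobeniusAt σ ℓ →
        LinearMap.charpoly (ρ.ρ σ) =
          X ^ 2 - C (algebraMap O' O'' ((iota.comp chig.rangeRestrict)
            (CuspForm.heckeAlgebra.T hℓ hℓM hℓS))) * X + C ((ℓ : O'')))

include hN0 hbad hMN hgW hlam35 hlamS hlamO' hchig hfrob in
/-- an output of S35/S36 for a form with the coefficients of `W` is an `S58Rep` -/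
theorem s58m_rep_of_output : S58Rep W lam (S ∪ N.primeFactors) ρ := by
  have hnotN : ∀ ℓ : ℕ, ℓ.Prime → ℓ ∉ S ∪ N.primeFactors → ¬ ℓ ∣ N := by
    intro ℓ hℓ hℓB hd
    exact hℓB (Finset.mem_union_right _ (Nat.mem_primeFactors.2 ⟨hℓ, hd, hN0⟩))
  refine ⟨?_, Finset.mem_union_left _ hlamS, hlam35, ?_, ?_⟩
  · have e : ((lam : ℕ) : O'') = algebraMap O' O'' ((lam : ℕ) : O') := (map_natCast _ _).symm
    rw [e, mem_maximalIdeal, mem_nonunits_iff]
    intro hu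
    exact (mem_nonunits_iff.1 ((mem_maximalIdeal _).1 hlamO')) (isUnit_of_map_unit _ _ hu)
  · intro ℓ hℓ hℓB hd
    exact hnotN ℓ hℓ hℓB (hbad ℓ hℓ hd)
  · intro ℓ hℓ hℓB A hA σ hσ
    have hℓN := hnotN ℓ hℓ hℓB
    have hℓM : ¬ ℓ ∣ M := fun hd => hℓN (dvd_trans hd hMN)
    have hℓS : ℓ ∉ (↑S : Set ℕ) := fun hs => hℓB (Finset.mem_union_left _ hs)
    rw [hfrob ℓ hℓ hℓM hℓS A hA σ hσ]
    have e1 : chig.rangeRestrict (CuspForm.heckeAlgebra.T hℓ hℓM hℓS) =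
        ((W.apOfModel ℓ : ℤ) : chig.range) := by
      apply Subtype.ext
      rw [RingHom.coe_rangeRestrict, hchig, hgW ℓ hℓ hℓN]
      simp
    rw [RingHom.comp_apply, e1, map_intCast, map_intCast]

end output

section main

variable (hin : S58In) (W : WeierstrassCurve ℤ) (hss : W.IsSemistableModel) (hΔ : W.Δ ≠ 0)
  {N : ℕ} (hN0 : N ≠ 0) (hbad : ∀ ℓ : ℕ, ℓ.Prime → (ℓ : ℤ) ∣ W.Δ → ℓ ∣ N)
  {M : ℕ} [NeZero M] (hMN : M ∣ N) {g : CuspForm (Gamma0 M) 2} (hg : g.IsNewform)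
  (hgW : ∀ ℓ : ℕ, ℓ.Prime → ¬ ℓ ∣ N → qCoeff g ℓ = (W.apOfModel ℓ : ℂ))

include hin hss hΔ hN0 hbad hMN hg hgW in
/-- **(C)** the coefficients of the newform at the good primes not dividing its level -/
theorem s58m_coeff_eq (h35 : S58H35) {r : ℕ} (hr : r.Prime) (hgood : W.IsGoodPrimeFor r)
    (hrM : ¬ r ∣ M) : qCoeff g r = (W.apOfModel r : ℂ) := by
  by_cases hrN : r ∣ N
  swap
  · exact hgW r hr hrN
  obtain ⟨lam, hlam35, hlamr, -⟩ := s58m_exists_lam r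
  haveI : Fact lam.Prime := ⟨by rcases hlam35 with rfl | rfl <;> norm_num⟩
  set S : Finset ℕ := insert lam M.primeFactors with hS
  have hlamS : lam ∈ S := Finset.mem_insert_self _ _
  have hMS : ∀ q : ℕ, q.Prime → q ∣ M → q ∈ S := fun q hq hqM =>
    Finset.mem_insert_of_mem (Nat.mem_primeFactors.2 ⟨hq, hqM, NeZero.ne M⟩)
  obtain ⟨chig, hchig, O', i1, i2, i3, i4, i5, i6, hlamO', iota, hiota⟩ := hin hg.1 lam S
  obtain ⟨O'', j1, j2, j3, j4, j5, j6, j7, j8, j9, hinj, ρ, hfrob, -⟩ :=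
    h35 hg lam S O' hlamO' chig hchig iota hlamS hMS
  have hrep := s58m_rep_of_output W hN0 hbad hMN hgW lam hlam35 S hlamS hlamO' chig hchig iota ρ
    hfrob
  obtain ⟨A, hA, σ, hσ⟩ := Fermat.Agent.S54.exists_liesOverPrime_and_isFrobeniusAt r hr
  have hrS : r ∉ (↑S : Set ℕ) := by
    intro h
    rcases Finset.mem_insert.1 h with h | h
    · exact hlamr h.symm
    · exact hrM (Nat.dvd_of_mem_primeFactors h)
  have h1 := hfrob r hr hrM hrS A hA σ hσ
  have h2 := (hrep.trace_frob hss hΔ hr hgood (Ne.symm hlamr) A hA σ hσ).1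
  have h3 := (s58_trace_det_of_charpoly ρ.finrank_eq (ρ.ρ σ) _ _ h1).1
  have h4 : algebraMap O' O'' (iota (chig.rangeRestrict (CuspForm.heckeAlgebra.T hr hrM hrS))) =
      algebraMap O' O'' (iota ((W.apOfModel r : ℤ) : chig.range)) := by
    rw [map_intCast, map_intCast, ← h2, h3]
    rfl
  have h5 := hiota (hinj h4)
  have h6 := congrArg Subtype.val h5
  rw [RingHom.coe_rangeRestrict, hchig] at h6
  rw [h6]
  simp

include hin hss hΔ hN0 hbad hMN hg hgW in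
/-- **(B1)** a good prime does not divide the level of the newform exactly -/
theorem s58m_not_exact (h35 : S58H35) {q : ℕ} (hq : q.Prime) (hgood : W.IsGoodPrimeFor q)
    (hqM : q ∣ M) (hq2 : ¬ q ^ 2 ∣ M) : False := by
  obtain ⟨lam, hlam35, hlamq, -⟩ := s58m_exists_lam q
  haveI : Fact lam.Prime := ⟨by rcases hlam35 with rfl | rfl <;> norm_num⟩
  set S : Finset ℕ := insert lam M.primeFactors with hS
  have hlamS : lam ∈ S := Finset.mem_insert_self _ _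
  have hMS : ∀ q : ℕ, q.Prime → q ∣ M → q ∈ S := fun q hq hqM =>
    Finset.mem_insert_of_mem (Nat.mem_primeFactors.2 ⟨hq, hqM, NeZero.ne M⟩)
  obtain ⟨chig, hchig, O', i1, i2, i3, i4, i5, i6, hlamO', iota, hiota⟩ := hin hg.1 lam S
  obtain ⟨O'', j1, j2, j3, j4, j5, j6, j7, j8, j9, hinj, ρ, hfrob, hextra⟩ :=
    h35 hg lam S O' hlamO' chig hchig iota hlamS hMS
  have hrep := s58m_rep_of_output W hN0 hbad hMN hgW lam hlam35 S hlamS hlamO' chig hchig iota ρ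
    hfrob
  obtain ⟨A, hA, σ, hσ⟩ := Fermat.Agent.S54.exists_liesOverPrime_and_isFrobeniusAt q hq
  have h2 := (hrep.trace_frob hss hΔ hq hgood (Ne.symm hlamq) A hA σ hσ).1
  have hH := Fermat.Agent.WE.we_hasse_model W hq hgood
  have hq2' : (2 : ℤ) ≤ q := by exact_mod_cast hq.two_le
  rcases hextra q hq (Ne.symm hlamq) hqM hq2 A hA σ hσ with h1 | h1
  · have h3 := (s58_trace_det_of_charpoly ρ.finrank_eq (ρ.ρ σ) _ _ h1).1
    have h4 : ((W.apOfModel q : ℤ) : O'') = (((q : ℤ) + 1 : ℤ) : O'') := by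
      rw [← h2, h3]; push_cast; ring
    have h5 : W.apOfModel q = (q : ℤ) + 1 := Int.cast_injective h4
    rw [h5] at hH
    nlinarith
  · have h1' : LinearMap.charpoly (ρ.ρ σ) =
        X ^ 2 - C (-((q : O'') + 1)) * X + C ((q : O'')) := by
      rw [h1, map_neg]; ring
    have h3 := (s58_trace_det_of_charpoly ρ.finrank_eq (ρ.ρ σ) _ _ h1').1
    have h4 : ((W.apOfModel q : ℤ) : O'') = ((-((q : ℤ) + 1) : ℤ) : O'') := by
      rw [← h2, h3]; push_cast; ring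
    have h5 : W.apOfModel q = -((q : ℤ) + 1) := Int.cast_injective h4
    rw [h5] at hH
    nlinarith

include hin hss hΔ hN0 hbad hMN hg hgW in
/-- **(B2)** the square of a prime does not divide the level of the newform -/
theorem s58m_not_sq (h36 : S58H36) {q : ℕ} (hq : q.Prime) (hq2M : q ^ 2 ∣ M)
    (hq3 : ¬ q ^ 3 ∣ N) : False := by
  obtain ⟨lam, hlam35, hlamq, hlam2⟩ := s58m_exists_lam q
  haveI : Fact lam.Prime := ⟨by rcases hlam35 with rfl | rfl <;> norm_num⟩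
  set S : Finset ℕ := insert lam M.primeFactors with hS
  have hlamS : lam ∈ S := Finset.mem_insert_self _ _
  have hMS : ∀ q : ℕ, q.Prime → q ∣ M → q ∈ S := fun q hq hqM =>
    Finset.mem_insert_of_mem (Nat.mem_primeFactors.2 ⟨hq, hqM, NeZero.ne M⟩)
  obtain ⟨chig, hchig, O', i1, i2, i3, i4, i5, i6, hlamO', iota, hiota⟩ := hin hg.1 lam S
  obtain ⟨O'', j1, j2, j3, j4, j5, j6, j7, j8, j9, hinj, ρ, hfrob, hextra⟩ :=
    h36 hg lam S O' hlamO' hlam2 chig hchig iota hlamS hMS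
  have hrep := s58m_rep_of_output W hN0 hbad hMN hgW lam hlam35 S hlamS hlamO' chig hchig iota ρ
    hfrob
  have hfac : M.factorization q = 2 := by
    have h1 : 2 ≤ M.factorization q :=
      (hq.pow_dvd_iff_le_factorization (NeZero.ne M)).1 hq2M
    have h2 : ¬ 3 ≤ M.factorization q := fun h =>
      hq3 (dvd_trans ((hq.pow_dvd_iff_le_factorization (NeZero.ne M)).2 h) hMN)
    omega
  exact hextra q hq (Ne.symm hlamq) hfac (hrep.unipotent hss hΔ hq (Ne.symm hlamq))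

end main

/-- **S58** from the inputs, S35 and S36 (without its residual hypothesis) -/
theorem s58_main (hin : S58In) (h35 : S58H35) (h36 : S58H36)
    (W : WeierstrassCurve ℤ) (hss : W.IsSemistableModel) (N : ℕ)
    (hN : W.IsModularModelOfLevel N) (hbad : ∀ ℓ : ℕ, ℓ.Prime → (ℓ : ℤ) ∣ W.Δ → ℓ ∣ N)
    (hN3 : ∀ q : ℕ, q.Prime → ¬ q ^ 3 ∣ N) :
    W.IsModularModelOfLevel W.conductorLevel := by
  have hN0 : N ≠ 0 := by
    rintro rfl
    exact hN3 2 Nat.prime_two (dvd_zero _)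
  have hΔ : W.Δ ≠ 0 := by
    intro h0
    obtain ⟨ℓ, hℓN, hℓ⟩ := Nat.exists_infinite_primes (N + 1)
    have h1 := hbad ℓ hℓ (by rw [h0]; exact dvd_zero _)
    have h2 := Nat.le_of_dvd (Nat.pos_of_ne_zero hN0) h1
    omega
  obtain ⟨f, hf, hfW⟩ := hN
  obtain ⟨M, hMN, hMpos, g, hg, hgf⟩ :=
    Fermat.Agent.S58x.s58nf_exists_newform (Nat.pos_of_ne_zero hN0) f hf
  haveI : NeZero M := ⟨hMpos.ne'⟩
  have hgW : ∀ ℓ : ℕ, ℓ.Prime → ¬ ℓ ∣ N → qCoeff g ℓ = (W.apOfModel ℓ : ℂ) := by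
    intro ℓ hℓ hℓN
    rw [hgf ℓ hℓ hℓN]
    exact hfW ℓ hℓ (fun hd => hℓN (hbad ℓ hℓ hd)) hℓN
  have hB : ∀ q : ℕ, q.Prime → q ∣ M → (q : ℤ) ∣ W.Δ ∧ ¬ q ^ 2 ∣ M := by
    intro q hq hqM
    have hq2 : ¬ q ^ 2 ∣ M := fun h =>
      s58m_not_sq hin W hss hΔ hN0 hbad hMN hg hgW h36 hq h (hN3 q hq)
    refine ⟨?_, hq2⟩
    by_contra hgood
    exact s58m_not_exact hin W hss hΔ hN0 hbad hMN hg hgW h35 hq hgood hqM hq2
  have hMD : M ∣ W.conductorLevel := by
    have hsq : Squarefree M := by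
      rw [Nat.squarefree_iff_prime_squarefree]
      intro q hq hd
      exact (hB q hq (dvd_trans (dvd_mul_right q q) hd)).2 (by rw [pow_two]; exact hd)
    rw [← Nat.prod_primeFactors_of_squarefree hsq]
    apply Finset.prod_primes_dvd
    · intro a ha
      exact (Nat.prime_of_mem_primeFactors ha).prime
    · intro a ha
      have hap := Nat.prime_of_mem_primeFactors ha
      exact (W.prime_dvd_conductorLevel_iff hΔ hap).2 (hB a hap (Nat.dvd_of_mem_primeFactors ha)).1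
  refine Fermat.Agent.S58x.s58st_modular_conductorLevel W hMD g hg.1 (fun r hr hgood hrD => ?_)
  exact s58m_coeff_eq hin W hss hΔ hN0 hbad hMN hg hgW h35 hr hgood
    (fun hrM => hrD (dvd_trans hrM hMD))

end Fermat.Agent.S58
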