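import Fermat.Agent.G.Adic.Quad
import Fermat.Agent.G.Adic.FrobRoot
import Fermat.Prelude.Def_GaloisRep_Adic

/-!
# S58, file Transport: Frobenius relations on a torsion module versus a `λ`-adic representation

`ρ` a two-dimensional `λ`-adic representation of `G_ℚ` over a discrete valuation ring `O` whose
Frobenius elements at the primes `ℓ ∉ B` have characteristic polynomial `X² - a_ℓ X + ℓ` with
INTEGERS `a_ℓ`, and `Λ` an abelian group with an action of `G_ℚ` on whose `λⁿ`-torsion the same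
Frobenius elements satisfy `φ² - a_ℓ φ + ℓ = 0` (and which is fixed by an open subgroup).

* `s58_transport` : for every `σ ∈ G_ℚ` and every `n` there are integers `t`, `d` with
  `tr ρ(σ) ≡ t`, `det ρ(σ) ≡ d` modulo `𝔪ⁿ`, `σ² - tσ + d = 0` on `Λ[λⁿ]` and `σ ζ = ζ ^ d` on
  `μ_{λⁿ}` (weak Frobenius density at finite level + Lucas sequences).
* `s58_trace_eq_of_rel` : if `σ` satisfies `σ² - cσ + e = 0` on all `Λ[λⁿ]`, acts on `μ_{λ^∞}` by
  `ζ ↦ ζ ^ e`, and `Λ` has points of exact order `λⁿ` for all `n`, then `tr ρ(σ) = c`,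
  `det ρ(σ) = e`.
* `s58_charpoly_of_fixed` : if `σ` fixes `μ_{λ^∞}` and fixes points of exact order `λⁿ` of `Λ`
  for all `n`, then the characteristic polynomial of `ρ(σ)` is `(X - 1)²`.
-/

set_option autoImplicit false
set_option linter.unusedSectionVars false
set_option linter.unusedVariables false
set_option linter.style.haveILetI false

noncomputable section

namespace Fermat.Agent.S58

open IsLocalRing Polynomial Fermat.Agent.G

local notation "Qb" => AlgebraicClosure ℚ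
local notation "GQ" => (AlgebraicClosure ℚ ≃ₐ[ℚ] AlgebraicClosure ℚ)

/-! ### Lucas coefficients: `A ^ b = α_b + β_b A` when `A² = tA - d` -/

/-- the pair `(α_b, β_b)` with `A ^ b = α_b + β_b A` for every `A` with `A² - tA + d = 0` -/
def s58Luc (t d : ℤ) : ℕ → ℤ × ℤ
  | 0 => (1, 0)
  | b + 1 => (-((s58Luc t d b).2 * d), (s58Luc t d b).1 + (s58Luc t d b).2 * t)

@[simp] theorem s58Luc_zero (t d : ℤ) : s58Luc t d 0 = (1, 0) := rfl

theorem s58Luc_succ (t d : ℤ) (b : ℕ) :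
    s58Luc t d (b + 1) = (-((s58Luc t d b).2 * d), (s58Luc t d b).1 + (s58Luc t d b).2 * t) := rfl

/-- the trace of the `b`-th power -/
def s58LucT (t d : ℤ) (b : ℕ) : ℤ := 2 * (s58Luc t d b).1 + (s58Luc t d b).2 * t

theorem s58Luc_norm (t d : ℤ) (b : ℕ) :
    (s58Luc t d b).1 ^ 2 + (s58Luc t d b).1 * (s58Luc t d b).2 * t + (s58Luc t d b).2 ^ 2 * d
      = d ^ b := by
  induction b with
  | zero => simp
  | succ b ih =>
    rw [s58Luc_succ]
    dsimp only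
    rw [pow_succ d b, ← ih]
    ring

/-- powers of an element `A` of an algebra with `A² = tA - d` -/
theorem s58_ring_pow {O : Type*} [CommRing O] {E : Type*} [Ring E] [Algebra O E] (A : E) (t d : ℤ)
    (h : A * A = (t : O) • A - (d : O) • (1 : E)) (b : ℕ) :
    A ^ b = ((s58Luc t d b).1 : O) • (1 : E) + ((s58Luc t d b).2 : O) • A := by
  induction b with
  | zero => simp
  | succ b ih =>
    rw [pow_succ, ih, add_mul, smul_mul_assoc, one_mul, smul_mul_assoc, h, s58Luc_succ]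
    push_cast
    module

/-- powers of an additive endomorphism, elementwise -/
theorem s58_pow_smul {G : Type*} [Group G] {Λ : Type*} [AddCommGroup Λ] [DistribMulAction G Λ]
    (φ : G) (t d : ℤ) (T : AddSubgroup Λ) (hT : ∀ x ∈ T, φ • x ∈ T)
    (h : ∀ x ∈ T, φ • φ • x - t • φ • x + d • x = 0) (b : ℕ) :
    ∀ x ∈ T, φ ^ b • x = (s58Luc t d b).1 • x + (s58Luc t d b).2 • φ • x := by
  induction b with
  | zero => intro x _; simp
  | succ b ih =>
    intro x hx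
    have h2 : φ • φ • x = t • φ • x - d • x := by
      have := h x hx
      rw [← sub_eq_zero, ← this]; abel
    rw [pow_succ', mul_smul, ih x hx, smul_add, smul_comm φ, smul_comm φ ((s58Luc t d b).2),
      h2, s58Luc_succ]
    simp only [smul_sub, smul_smul, neg_smul, add_smul]
    rw [mul_comm ((s58Luc t d b).2) t]
    abel

/-- the quadratic relation of the `b`-th power, elementwise -/
theorem s58_pow_rel {G : Type*} [Group G] {Λ : Type*} [AddCommGroup Λ] [DistribMulAction G Λ]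
    (φ : G) (t d : ℤ) (T : AddSubgroup Λ) (hT : ∀ x ∈ T, φ • x ∈ T)
    (h : ∀ x ∈ T, φ • φ • x - t • φ • x + d • x = 0) (b : ℕ) :
    ∀ x ∈ T, φ ^ b • φ ^ b • x - s58LucT t d b • φ ^ b • x + (d ^ b) • x = 0 := by
  intro x hx
  have hTb : ∀ (c : ℕ), ∀ y ∈ T, φ ^ c • y ∈ T := by
    intro c
    induction c with
    | zero => intro y hy; simpa using hy
    | succ c ih => intro y hy; rw [pow_succ', mul_smul]; exact hT _ (ih y hy)
  have h2 : φ • φ • x = t • φ • x - d • x := by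
    have := h x hx
    rw [← sub_eq_zero, ← this]; abel
  have e1 := s58_pow_smul φ t d T hT h b x hx
  have e2 := s58_pow_smul φ t d T hT h b (φ • x) (hT x hx)
  have e3 : φ ^ b • φ ^ b • x =
      (s58Luc t d b).1 • φ ^ b • x + (s58Luc t d b).2 • φ ^ b • φ • x := by
    conv_lhs => rw [e1]
    rw [smul_add, smul_comm (φ ^ b), smul_comm (φ ^ b) ((s58Luc t d b).2)]
  rw [e3, e2, e1, h2, ← s58Luc_norm t d b, s58LucT]
  generalize φ • x = y
  module


/-! ### small endomorphisms of a free module of rank two -/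

section Small

variable {O : Type*} [CommRing O] {V : Type*} [AddCommGroup V] [Module O V]
  [Module.Free O V] [Module.Finite O V]

/-- if `f - 1` maps `V` into `I V` (rank two) then `det f - 1 ∈ I` -/
theorem s58_det_sub_one_mem [Nontrivial O] (hV : Module.finrank O V = 2) (I : Ideal O)
    (f : Module.End O V) (hf : GadSmall I (f - 1)) : LinearMap.det f - 1 ∈ I := by
  classical
  let b := Module.finBasisOfFinrankEq O V hV
  have hZ : ∀ i j, LinearMap.toMatrix b b (f - 1) i j ∈ I := by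
    intro i j
    rw [LinearMap.toMatrix_apply]
    exact gad_functional_mem (b.coord i) (hf (b j))
  have hf1 : LinearMap.toMatrix b b f = 1 + LinearMap.toMatrix b b (f - 1) := by
    rw [map_sub, LinearMap.toMatrix_one]; abel
  rw [← LinearMap.det_toMatrix b f, hf1, Matrix.det_fin_two]
  set Z := LinearMap.toMatrix b b (f - 1) with hZdef
  have e : (1 + Z) 0 0 * (1 + Z) 1 1 - (1 + Z) 0 1 * (1 + Z) 1 0 - 1 =
      Z 0 0 + Z 1 1 + Z 0 0 * Z 1 1 - Z 0 1 * Z 1 0 := by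
    simp only [Matrix.add_apply, Matrix.one_apply_eq, Matrix.one_apply_ne, ne_eq,
      Fin.zero_eq_one_iff, Fin.one_eq_zero_iff, OfNat.ofNat_ne_one, not_false_eq_true]
    ring
  rw [e]
  exact I.sub_mem (I.add_mem (I.add_mem (hZ 0 0) (hZ 1 1)) (I.mul_mem_right _ (hZ 0 0)))
    (I.mul_mem_right _ (hZ 0 1))

/-- the trace of an endomorphism with image in `I • V` lies in `I` -/
theorem s58_trace_mem (I : Ideal O) (f : Module.End O V) (hf : GadSmall I f) :
    LinearMap.trace O V f ∈ I := by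
  classical
  set b := Module.Free.chooseBasis O V with hb
  rw [LinearMap.trace_eq_matrix_trace O b, Matrix.trace]
  refine Ideal.sum_mem _ fun i _ => ?_
  rw [Matrix.diag_apply, LinearMap.toMatrix_apply]
  exact gad_functional_mem (b.coord i) (hf _)

/-- trace of `α + β F` in rank two -/
theorem s58_trace_lin (hV : Module.finrank O V = 2) (F : Module.End O V) (α β : O) :
    LinearMap.trace O V (α • (1 : Module.End O V) + β • F) = 2 * α + β * LinearMap.trace O V F := by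
  rw [map_add, map_smul, map_smul, LinearMap.trace_one, hV, smul_eq_mul, smul_eq_mul]
  push_cast
  ring

/-- trace and determinant from the characteristic polynomial in rank two -/
theorem s58_trace_det_of_charpoly [Nontrivial O] (hV : Module.finrank O V = 2)
    (f : Module.End O V) (t d : O) (h : LinearMap.charpoly f = X ^ 2 - C t * X + C d) :
    LinearMap.trace O V f = t ∧ LinearMap.det f = d := by
  classical
  let b := Module.finBasisOfFinrankEq O V hV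
  have h1 : (LinearMap.toMatrix b b f).charpoly = X ^ 2 - C t * X + C d := by
    rw [LinearMap.charpoly_toMatrix]; exact h
  rw [Matrix.charpoly_fin_two] at h1
  have ht : (LinearMap.toMatrix b b f).trace = t := by
    have := congrArg (fun p : O[X] => p.coeff 1) h1
    simp [coeff_C] at this
    exact this
  have hd : (LinearMap.toMatrix b b f).det = d := by
    have := congrArg (fun p : O[X] => p.coeff 0) h1
    simp only [coeff_add, coeff_sub, coeff_X_pow, coeff_C_mul, coeff_X_zero, coeff_C_zero,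
      mul_zero, sub_zero, zero_add] at this
    simpa using this
  exact ⟨by rw [LinearMap.trace_eq_matrix_trace O b f, ht], by rw [← LinearMap.det_toMatrix b f, hd]⟩

/-- the characteristic polynomial in rank two -/
theorem s58_charpoly_eq [Nontrivial O] (hV : Module.finrank O V = 2) (f : Module.End O V) :
    LinearMap.charpoly f = X ^ 2 - C (LinearMap.trace O V f) * X + C (LinearMap.det f) := by
  classical
  let b := Module.finBasisOfFinrankEq O V hV
  rw [← LinearMap.charpoly_toMatrix f b, Matrix.charpoly_fin_two,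
    LinearMap.trace_eq_matrix_trace O b f, ← LinearMap.det_toMatrix b f]

end Small


/-! ### the transport theorem -/

section Transport

variable {O : Type} [CommRing O] [IsDomain O] [IsDiscreteValuationRing O]
  (lam : ℕ) [Fact lam.Prime] (ρ : GaloisRepAdic O) (B : Finset ℕ) (a : ℕ → ℤ)
  {Λ : Type*} [AddCommGroup Λ] [DistribMulAction GQ Λ]

/-- the `m`-torsion subgroup -/
def s58Tors (Λ : Type*) [AddCommGroup Λ] (m : ℕ) : AddSubgroup Λ where
  carrier := {x | m • x = 0}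
  zero_mem' := smul_zero m
  add_mem' := fun {x y} hx hy => by
    show m • (x + y) = 0
    rw [smul_add, show m • x = 0 from hx, show m • y = 0 from hy, add_zero]
  neg_mem' := fun {x} hx => by
    show m • (-x) = 0
    rw [smul_neg, show m • x = 0 from hx, neg_zero]

theorem mem_s58Tors {m : ℕ} {x : Λ} : x ∈ s58Tors Λ m ↔ m • x = 0 := Iff.rfl

theorem s58_smul_mem_tors {m : ℕ} (σ : GQ) {x : Λ} (hx : x ∈ s58Tors Λ m) :
    σ • x ∈ s58Tors Λ m := by
  rw [mem_s58Tors] at hx ⊢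
  rw [← smul_comm σ m x, hx, smul_zero]

/-- **Transport.** -/
theorem s58_transport (hlamB : lam ∈ B)
    (hρ : ∀ ℓ : ℕ, ℓ.Prime → ℓ ∉ B → ∀ A : ValuationSubring Qb, A.LiesOverPrime ℓ →
      ∀ σ : GQ, A.IsFrobeniusAt σ ℓ →
        LinearMap.charpoly (ρ.ρ σ) = X ^ 2 - C ((a ℓ : ℤ) : O) * X + C ((ℓ : ℕ) : O))
    (n : ℕ) (Lk : IntermediateField ℚ Qb) (hLk : FiniteDimensional ℚ Lk)
    (hΛfix : ∀ σ : GQ, (∀ x ∈ Lk, σ x = x) → ∀ x ∈ s58Tors Λ (lam ^ n), σ • x = x)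
    (hΛ : ∀ ℓ : ℕ, ℓ.Prime → ℓ ∉ B → ∀ A : ValuationSubring Qb, A.LiesOverPrime ℓ →
      ∀ σ : GQ, A.IsFrobeniusAt σ ℓ → ∀ x ∈ s58Tors Λ (lam ^ n),
        σ • σ • x - a ℓ • σ • x + (ℓ : ℤ) • x = 0)
    (σ : GQ) :
    ∃ (t : ℤ) (d : ℕ),
      LinearMap.trace O ρ.V (ρ.ρ σ) - (t : O) ∈ maximalIdeal O ^ n ∧
      LinearMap.det (ρ.ρ σ) - (d : O) ∈ maximalIdeal O ^ n ∧
      (∀ x ∈ s58Tors Λ (lam ^ n), σ • σ • x - t • σ • x + (d : ℤ) • x = 0) ∧
      ∀ ζ : Qb, ζ ^ lam ^ n = 1 → σ ζ = ζ ^ d := by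
  classical
  have hlam : lam.Prime := Fact.out
  obtain ⟨L, hLfd, hL⟩ := ρ.isAdicContinuous n
  haveI := hLfd
  haveI := hLk
  haveI : FiniteDimensional ℚ ↥(L ⊔ Lk) := IntermediateField.finiteDimensional_sup L Lk
  obtain ⟨U, hUn, hUo, hUL, hUζ⟩ :=
    gad_exists_normal_level (L ⊔ Lk) (lam ^ n) (pow_ne_zero _ hlam.ne_zero)
  haveI := hUn
  set f : GQ →* GQ ⧸ U := QuotientGroup.mk' U with hf
  have hfker : IsOpen (f.ker : Set GQ) := by
    rw [hf, QuotientGroup.ker_mk']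
    exact hUo
  obtain ⟨q, hq, hqB, a', ha', ⟨A, hA, φ, hφ, hfφ⟩, -⟩ :=
    Fermat.Agent.S56.fd_exists_isFrobeniusAt_hom f hfker σ B
  have hqlam : q ≠ lam := fun h => hqB (h ▸ hlamB)
  obtain ⟨b, hb⟩ := exists_pow_eq_self_of_coprime ha'
  have hfg : f (φ ^ b) = f σ := by rw [map_pow, hfφ, hb]
  obtain ⟨u, hu, hσu⟩ : ∃ u ∈ U, σ = φ ^ b * u :=
    ⟨(φ ^ b)⁻¹ * σ, QuotientGroup.eq.1 hfg, by group⟩
  have huL : ∀ x ∈ L, u x = x := fun x hx => hUL u hu x ((le_sup_left : L ≤ L ⊔ Lk) hx)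
  have huLk : ∀ x ∈ Lk, u x = x := fun x hx => hUL u hu x ((le_sup_right : Lk ≤ L ⊔ Lk) hx)
  refine ⟨s58LucT (a q) q b, q ^ b, ?_, ?_, ?_, ?_⟩
  · -- the trace
    set F : Module.End O ρ.V := ρ.ρ φ with hF
    have hchar := hρ q hq hqB A hA φ hφ
    obtain ⟨htr, hdet⟩ := s58_trace_det_of_charpoly ρ.finrank_eq F _ _ hchar
    have hCH : F * F = ((a q : ℤ) : O) • F - (((q : ℤ) : ℤ) : O) • (1 : Module.End O ρ.V) := by
      have h0 := LinearMap.aeval_self_charpoly F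
      rw [hchar] at h0
      simp only [map_add, map_sub, map_mul, map_pow, aeval_X, aeval_C,
        Module.algebraMap_end_eq_smul_id] at h0
      rw [← sub_eq_zero, ← h0]
      push_cast
      rw [sq]
      ext v
      simp only [LinearMap.sub_apply, LinearMap.add_apply, Module.End.mul_apply,
        LinearMap.smul_apply, LinearMap.id_coe, id_eq, Module.End.one_apply]
      abel
    have hpow := s58_ring_pow (O := O) F (a q) q hCH b
    have htrpow : LinearMap.trace O ρ.V (F ^ b) = ((s58LucT (a q) q b : ℤ) : O) := by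
      rw [hpow, s58_trace_lin ρ.finrank_eq, htr, s58LucT]
      push_cast
      ring
    have hσ : ρ.ρ σ = F ^ b + F ^ b * (ρ.ρ u - 1) := by
      rw [hσu, map_mul, map_pow, mul_sub, mul_one]; abel
    have hε : GadSmall (maximalIdeal O ^ n) (ρ.ρ u - 1) := fun v => by
      rw [LinearMap.sub_apply, Module.End.one_apply]
      exact hL u huL v
    rw [hσ, map_add, htrpow, add_sub_cancel_left]
    exact s58_trace_mem _ _ (hε.mul_left (F ^ b))
  · -- the determinant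
    set F : Module.End O ρ.V := ρ.ρ φ with hF
    have hchar := hρ q hq hqB A hA φ hφ
    obtain ⟨htr, hdet⟩ := s58_trace_det_of_charpoly ρ.finrank_eq F _ _ hchar
    have hε : GadSmall (maximalIdeal O ^ n) (ρ.ρ u - 1) := fun v => by
      rw [LinearMap.sub_apply, Module.End.one_apply]
      exact hL u huL v
    have h1 := s58_det_sub_one_mem ρ.finrank_eq _ _ hε
    have e : LinearMap.det (ρ.ρ σ) - ((q ^ b : ℕ) : O) =
        ((q : ℕ) : O) ^ b * (LinearMap.det (ρ.ρ u) - 1) := by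
      rw [hσu, map_mul, map_pow, map_mul, map_pow, hdet]
      push_cast
      ring
    rw [e]
    exact Ideal.mul_mem_left _ _ h1
  · -- the relation on the torsion module
    intro x hx
    have hrel := s58_pow_rel φ (a q) (q : ℤ) (s58Tors Λ (lam ^ n))
      (fun y hy => s58_smul_mem_tors φ hy) (hΛ q hq hqB A hA φ hφ) b
    have hTb : ∀ y ∈ s58Tors Λ (lam ^ n), φ ^ b • y ∈ s58Tors Λ (lam ^ n) :=
      fun y hy => s58_smul_mem_tors (φ ^ b) hy
    have hσx : ∀ y ∈ s58Tors Λ (lam ^ n), σ • y = φ ^ b • y := by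
      intro y hy
      rw [hσu, mul_smul, hΛfix u huLk y hy]
    rw [hσx x hx, hσx _ (hTb x hx)]
    have := hrel x hx
    push_cast
    exact this
  · -- roots of unity
    intro ζ hζ
    have hφζ : ∀ (c : ℕ) (ξ : Qb), ξ ^ lam ^ n = 1 → (φ ^ c) ξ = ξ ^ q ^ c := by
      intro c
      induction c with
      | zero => intro ξ _; simp
      | succ c ih =>
        intro ξ hξ
        rw [pow_succ', AlgEquiv.mul_apply, ih ξ hξ, map_pow,
          (gad_frob_root lam hq hqlam A hA n ξ hξ).1 φ hφ, ← pow_mul, ← pow_succ']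
    rw [hσu, AlgEquiv.mul_apply, hUζ u hu ζ hζ, hφζ b ζ hζ]


/-- an element lying in all powers of the maximal ideal vanishes -/
theorem s58_eq_zero_of_forall_mem {z : O} (h : ∀ n : ℕ, z ∈ maximalIdeal O ^ n) : z = 0 := by
  have h1 : z ∈ ⨅ n : ℕ, maximalIdeal O ^ n := by
    rw [Ideal.mem_iInf]; exact h
  rw [Ideal.iInf_pow_eq_bot_of_isLocalRing (maximalIdeal O) Ideal.IsPrime.ne_top'] at h1
  exact h1

theorem s58_intCast_mem (hlamO : (lam : O) ∈ maximalIdeal O) {m : ℤ} {n : ℕ}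
    (h : ((lam ^ n : ℕ) : ℤ) ∣ m) : (m : O) ∈ maximalIdeal O ^ n := by
  obtain ⟨k, rfl⟩ := h
  push_cast
  exact Ideal.mul_mem_right _ _ (Ideal.pow_mem_pow hlamO n)

/-- exponents of a primitive root -/
theorem s58_modEq_of_pow_eq {ζ : Qb} {m : ℕ} (hm : m ≠ 0) (hζ : IsPrimitiveRoot ζ m) {d e : ℕ}
    (h : ζ ^ d = ζ ^ e) : ((m : ℕ) : ℤ) ∣ (d : ℤ) - (e : ℤ) := by
  have hζ0 : ζ ≠ 0 := hζ.ne_zero hm
  rw [← hζ.zpow_eq_one_iff_dvd, zpow_sub₀ hζ0, zpow_natCast, zpow_natCast, h,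
    div_self (pow_ne_zero _ hζ0)]

/-- **(T-a)** the trace and determinant of `ρ(σ)` from a relation on the torsion modules. -/
theorem s58_trace_eq_of_rel (hlamO : (lam : O) ∈ maximalIdeal O) (hlamB : lam ∈ B)
    (hρ : ∀ ℓ : ℕ, ℓ.Prime → ℓ ∉ B → ∀ A : ValuationSubring Qb, A.LiesOverPrime ℓ →
      ∀ σ : GQ, A.IsFrobeniusAt σ ℓ →
        LinearMap.charpoly (ρ.ρ σ) = X ^ 2 - C ((a ℓ : ℤ) : O) * X + C ((ℓ : ℕ) : O))
    (hΛfix : ∀ n : ℕ, ∃ Lk : IntermediateField ℚ Qb, FiniteDimensional ℚ Lk ∧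
      ∀ σ : GQ, (∀ x ∈ Lk, σ x = x) → ∀ x ∈ s58Tors Λ (lam ^ n), σ • x = x)
    (hΛ : ∀ n : ℕ, ∀ ℓ : ℕ, ℓ.Prime → ℓ ∉ B → ∀ A : ValuationSubring Qb, A.LiesOverPrime ℓ →
      ∀ σ : GQ, A.IsFrobeniusAt σ ℓ → ∀ x ∈ s58Tors Λ (lam ^ n),
        σ • σ • x - a ℓ • σ • x + (ℓ : ℤ) • x = 0)
    (hexact : ∀ n : ℕ, ∃ x ∈ s58Tors Λ (lam ^ n), ∀ m : ℤ, m • x = 0 → ((lam ^ n : ℕ) : ℤ) ∣ m)
    (σ : GQ) (c : ℤ) (e : ℕ)
    (hσζ : ∀ (n : ℕ) (ζ : Qb), ζ ^ lam ^ n = 1 → σ ζ = ζ ^ e)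
    (hσ : ∀ n : ℕ, ∀ x ∈ s58Tors Λ (lam ^ n), σ • σ • x - c • σ • x + (e : ℤ) • x = 0) :
    LinearMap.trace O ρ.V (ρ.ρ σ) = (c : O) ∧ LinearMap.det (ρ.ρ σ) = (e : O) := by
  have hlam : lam.Prime := Fact.out
  have key : ∀ n : ℕ, LinearMap.trace O ρ.V (ρ.ρ σ) - (c : O) ∈ maximalIdeal O ^ n ∧
      LinearMap.det (ρ.ρ σ) - (e : O) ∈ maximalIdeal O ^ n := by
    intro n
    obtain ⟨Lk, hLk, hfix⟩ := hΛfix n
    obtain ⟨t, d, h1, h2, h3, h4⟩ :=
      s58_transport lam ρ B a hlamB hρ n Lk hLk hfix (hΛ n) σ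
    -- `d ≡ e`
    haveI : NeZero ((lam ^ n : ℕ) : Qb) := ⟨Nat.cast_ne_zero.mpr (pow_ne_zero _ hlam.ne_zero)⟩
    obtain ⟨ζ, hζ⟩ := HasEnoughRootsOfUnity.exists_primitiveRoot Qb (lam ^ n)
    have hde : ((lam ^ n : ℕ) : ℤ) ∣ (d : ℤ) - (e : ℤ) :=
      s58_modEq_of_pow_eq (pow_ne_zero _ hlam.ne_zero) hζ (by rw [← h4 ζ hζ.pow_eq_one, hσζ n ζ hζ.pow_eq_one])
    -- `t ≡ c`
    obtain ⟨x₀, hx₀, hx₀e⟩ := hexact n
    have hkill : ∀ x ∈ s58Tors Λ (lam ^ n), ∀ m : ℤ, ((lam ^ n : ℕ) : ℤ) ∣ m → m • x = 0 := by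
      intro x hx m hm
      obtain ⟨k, rfl⟩ := hm
      rw [mul_comm, mul_smul, natCast_zsmul, mem_s58Tors.mp hx, smul_zero]
    have htc : ((lam ^ n : ℕ) : ℤ) ∣ c - t := by
      apply hx₀e
      have hy : σ⁻¹ • x₀ ∈ s58Tors Λ (lam ^ n) := s58_smul_mem_tors σ⁻¹ hx₀
      have r1 := h3 _ hy
      have r2 := hσ n _ hy
      have r3 := hkill _ hy _ hde
      rw [smul_inv_smul] at r1 r2
      have : (c - t) • x₀ = (σ • x₀ - t • x₀ + (d : ℤ) • σ⁻¹ • x₀) -
          (σ • x₀ - c • x₀ + (e : ℤ) • σ⁻¹ • x₀) - ((d : ℤ) - (e : ℤ)) • σ⁻¹ • x₀ := by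
        generalize σ • x₀ = u
        generalize σ⁻¹ • x₀ = w
        module
      rw [this, r1, r2, r3]
      simp
    constructor
    · have e1 : LinearMap.trace O ρ.V (ρ.ρ σ) - (c : O) =
          (LinearMap.trace O ρ.V (ρ.ρ σ) - (t : O)) - ((c - t : ℤ) : O) := by
        push_cast; ring
      rw [e1]
      exact Ideal.sub_mem _ h1 (s58_intCast_mem lam hlamO htc)
    · have e1 : LinearMap.det (ρ.ρ σ) - (e : O) =
          (LinearMap.det (ρ.ρ σ) - (d : O)) + (((d : ℤ) - (e : ℤ) : ℤ) : O) := by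
        push_cast; ring
      rw [e1]
      exact Ideal.add_mem _ h2 (s58_intCast_mem lam hlamO hde)
  exact ⟨sub_eq_zero.mp (s58_eq_zero_of_forall_mem fun n => (key n).1),
    sub_eq_zero.mp (s58_eq_zero_of_forall_mem fun n => (key n).2)⟩

/-- **(T-b)** an element fixing `μ_{λ^∞}` and points of exact order `λⁿ` for all `n` is
unipotent under `ρ`. -/
theorem s58_charpoly_of_fixed (hlamO : (lam : O) ∈ maximalIdeal O) (hlamB : lam ∈ B)
    (hρ : ∀ ℓ : ℕ, ℓ.Prime → ℓ ∉ B → ∀ A : ValuationSubring Qb, A.LiesOverPrime ℓ →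
      ∀ σ : GQ, A.IsFrobeniusAt σ ℓ →
        LinearMap.charpoly (ρ.ρ σ) = X ^ 2 - C ((a ℓ : ℤ) : O) * X + C ((ℓ : ℕ) : O))
    (hΛfix : ∀ n : ℕ, ∃ Lk : IntermediateField ℚ Qb, FiniteDimensional ℚ Lk ∧
      ∀ σ : GQ, (∀ x ∈ Lk, σ x = x) → ∀ x ∈ s58Tors Λ (lam ^ n), σ • x = x)
    (hΛ : ∀ n : ℕ, ∀ ℓ : ℕ, ℓ.Prime → ℓ ∉ B → ∀ A : ValuationSubring Qb, A.LiesOverPrime ℓ →
      ∀ σ : GQ, A.IsFrobeniusAt σ ℓ → ∀ x ∈ s58Tors Λ (lam ^ n),
        σ • σ • x - a ℓ • σ • x + (ℓ : ℤ) • x = 0)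
    (σ : GQ)
    (hσζ : ∀ (n : ℕ) (ζ : Qb), ζ ^ lam ^ n = 1 → σ ζ = ζ)
    (hfixed : ∀ n : ℕ, ∃ x ∈ s58Tors Λ (lam ^ n),
      (∀ m : ℤ, m • x = 0 → ((lam ^ n : ℕ) : ℤ) ∣ m) ∧ σ • x = x) :
    LinearMap.charpoly (ρ.ρ σ) = (X - 1) ^ 2 := by
  have hlam : lam.Prime := Fact.out
  have key : ∀ n : ℕ, LinearMap.trace O ρ.V (ρ.ρ σ) - 2 ∈ maximalIdeal O ^ n ∧
      LinearMap.det (ρ.ρ σ) - 1 ∈ maximalIdeal O ^ n := by
    intro n
    obtain ⟨Lk, hLk, hfix⟩ := hΛfix n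
    obtain ⟨t, d, h1, h2, h3, h4⟩ :=
      s58_transport lam ρ B a hlamB hρ n Lk hLk hfix (hΛ n) σ
    haveI : NeZero ((lam ^ n : ℕ) : Qb) := ⟨Nat.cast_ne_zero.mpr (pow_ne_zero _ hlam.ne_zero)⟩
    obtain ⟨ζ, hζ⟩ := HasEnoughRootsOfUnity.exists_primitiveRoot Qb (lam ^ n)
    have hde : ((lam ^ n : ℕ) : ℤ) ∣ (d : ℤ) - ((1 : ℕ) : ℤ) :=
      s58_modEq_of_pow_eq (pow_ne_zero _ hlam.ne_zero) hζ (by rw [← h4 ζ hζ.pow_eq_one, hσζ n ζ hζ.pow_eq_one, pow_one])
    obtain ⟨x₀, hx₀, hx₀e, hx₀σ⟩ := hfixed n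
    have r1 := h3 x₀ hx₀
    rw [hx₀σ, hx₀σ] at r1
    have htc : ((lam ^ n : ℕ) : ℤ) ∣ 1 - t + (d : ℤ) := by
      apply hx₀e
      rw [← r1]; module
    have ht2 : ((lam ^ n : ℕ) : ℤ) ∣ 2 - t := by
      have : 2 - t = (1 - t + (d : ℤ)) - ((d : ℤ) - ((1 : ℕ) : ℤ)) := by push_cast; ring
      rw [this]
      exact dvd_sub htc hde
    constructor
    · have e1 : LinearMap.trace O ρ.V (ρ.ρ σ) - 2 =
          (LinearMap.trace O ρ.V (ρ.ρ σ) - (t : O)) - ((2 - t : ℤ) : O) := by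
        push_cast; ring
      rw [e1]
      exact Ideal.sub_mem _ h1 (s58_intCast_mem lam hlamO ht2)
    · have e1 : LinearMap.det (ρ.ρ σ) - 1 =
          (LinearMap.det (ρ.ρ σ) - (d : O)) + (((d : ℤ) - ((1 : ℕ) : ℤ) : ℤ) : O) := by
        push_cast; ring
      rw [e1]
      exact Ideal.add_mem _ h2 (s58_intCast_mem lam hlamO hde)
  have htr : LinearMap.trace O ρ.V (ρ.ρ σ) = 2 :=
    sub_eq_zero.mp (s58_eq_zero_of_forall_mem fun n => (key n).1)
  have hdet : LinearMap.det (ρ.ρ σ) = 1 :=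
    sub_eq_zero.mp (s58_eq_zero_of_forall_mem fun n => (key n).2)
  rw [s58_charpoly_eq ρ.finrank_eq, htr, hdet]
  simp only [map_ofNat, map_one]
  ring

end Transport

end Fermat.Agent.S58
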